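import Fermat.Agent.SkolemMahlerLech.Embedding
import Mathlib.LinearAlgebra.Matrix.GeneralLinearGroup.Defs
import Mathlib.GroupTheory.Finiteness
import Mathlib.GroupTheory.OrderOfElement
import Mathlib.Data.Nat.Choose.Dvd

/-!
# Finitely generated linear groups in characteristic zero

Cassels' embedding sends the entries of generators and their inverses into `ℤ_p`, `p` odd, so a
finitely generated subgroup of `GL n K` embeds into `GL n ℤ_p`. There the kernel of reduction modulo
`p` has no element of finite order but `1`: if `(1 + p ^ k B) ^ q = 1` for a prime `q` and `k ≥ 1`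
then `p` divides `B`. Reduction modulo the powers of `p` separates the elements.
-/

set_option autoImplicit false
set_option linter.style.haveILetI false

noncomputable section

open Matrix Finset

namespace FA.LinearGroups

variable {n : Type*} [Fintype n] [DecidableEq n] {p : ℕ} [hp : Fact p.Prime]

/-- Matrices congruent to `1` modulo `p ^ k`. -/
def Congruent (k : ℕ) (A : Matrix n n ℤ_[p]) : Prop :=
  ∃ B : Matrix n n ℤ_[p], A = 1 + (p : ℤ_[p]) ^ k • B

omit [Fintype n] in
theorem congruent_iff_map (k : ℕ) (A : Matrix n n ℤ_[p]) :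
    Congruent k A ↔ A.map (PadicInt.toZModPow k) = 1 := by
  constructor
  · rintro ⟨B, rfl⟩
    have hp0 : PadicInt.toZModPow k ((p : ℤ_[p]) ^ k) = 0 := by
      rw [← RingHom.mem_ker, PadicInt.ker_toZModPow]
      exact Ideal.mem_span_singleton_self _
    ext i j
    by_cases h : i = j <;>
      simp only [Matrix.map_apply, Matrix.add_apply, Matrix.one_apply, h, if_true, if_false,
        Matrix.smul_apply, smul_eq_mul, map_add, map_one, map_zero, map_mul, hp0, zero_mul,
        add_zero]
  · intro h
    have hdvd : ∀ i j, ∃ b : ℤ_[p], (A - 1) i j = (p : ℤ_[p]) ^ k * b := fun i j => by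
      refine Ideal.mem_span_singleton.1 (?_ : (A - 1) i j ∈ Ideal.span {(p : ℤ_[p]) ^ k})
      rw [← PadicInt.ker_toZModPow, RingHom.mem_ker, Matrix.sub_apply, map_sub]
      have h1 := congrArg (fun Q => Q i j) h
      simp only [Matrix.map_apply] at h1
      rw [h1]
      by_cases e : i = j <;> simp [Matrix.one_apply, e]
    choose B hB using hdvd
    refine ⟨Matrix.of B, ?_⟩
    ext i j
    rw [Matrix.add_apply, Matrix.smul_apply, of_apply, smul_eq_mul, ← hB, Matrix.sub_apply]
    ring

/-- An element of prime order congruent to `1` modulo `p ^ k` is so modulo `p ^ (k + 1)`. -/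
theorem congruent_succ (hp2 : p ≠ 2) {k q : ℕ} (hk : k ≠ 0) (hq : q.Prime) {A : Matrix n n ℤ_[p]}
    (hA : Congruent k A) (hAq : A ^ q = 1) : Congruent (k + 1) A := by
  obtain ⟨B, rfl⟩ := hA
  have hterm : ∀ m e : ℕ, ((p : ℤ_[p]) ^ k • B) ^ m * 1 ^ e * (q.choose m : Matrix n n ℤ_[p]) =
      ((q.choose m : ℤ_[p]) * (p : ℤ_[p]) ^ (k * m)) • B ^ m := fun m e => by
    rw [one_pow, mul_one, smul_pow, ← pow_mul, ← nsmul_eq_mul', ← Nat.cast_smul_eq_nsmul ℤ_[p],
      smul_smul]
  rw [add_comm 1, (Commute.one_right _).add_pow,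
    Finset.sum_congr rfl fun m _ => hterm m (q - m), ← Finset.add_sum_erase _ _
    (mem_range.2 (Nat.succ_pos q)), Nat.choose_zero_right, Nat.cast_one, mul_zero, pow_zero,
    pow_zero, one_mul, one_smul, add_eq_left] at hAq
  have h1m : 1 ∈ (range (q + 1)).erase 0 :=
    mem_erase.2 ⟨one_ne_zero, mem_range.2 (Nat.succ_lt_succ hq.pos)⟩
  rw [← Finset.add_sum_erase _ _ h1m, pow_one, mul_one, Nat.choose_one_right] at hAq
  set c := (p : ℤ_[p])
  have hc : c ≠ 0 := Nat.cast_ne_zero.2 hp.out.ne_zero
  have hp3 : 3 ≤ p := lt_of_le_of_ne hp.out.two_le (Ne.symm hp2)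
  have hgoal : ∀ i j, c ∣ B i j := by
    intro i j
    have h := congrArg (fun Q : Matrix n n ℤ_[p] => Q i j) hAq
    simp only [Matrix.add_apply, Matrix.sum_apply, Matrix.zero_apply, Matrix.smul_apply,
      smul_eq_mul] at h
    rcases eq_or_ne q p with rfl | hqp
    · have hrest : ∀ m ∈ ((range (q + 1)).erase 0).erase 1, c ^ (k + 2) ∣
          ((q.choose m : ℕ) : ℤ_[q]) * c ^ (k * m) * (B ^ m) i j := fun m hm => by
        simp only [mem_erase, mem_range] at hm
        rcases eq_or_ne m q with rfl | hmq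
        · refine dvd_mul_of_dvd_left (dvd_mul_of_dvd_right (pow_dvd_pow _ ?_) _) _
          calc k + 2 ≤ k * 3 := by omega
            _ ≤ k * m := Nat.mul_le_mul_left k hp3
        · obtain ⟨e, he⟩ := Nat.Prime.dvd_choose_self hp.out hm.2.1
            (lt_of_le_of_ne (by omega) hmq)
          rw [he, Nat.cast_mul, show (k + 2) = 1 + (k + 1) by omega, pow_add, pow_one, mul_assoc,
            mul_assoc]
          refine mul_dvd_mul_left _ (dvd_mul_of_dvd_right (dvd_mul_of_dvd_left
            (pow_dvd_pow _ ?_) _) _)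
          calc k + 1 ≤ k * 2 := by omega
            _ ≤ k * m := Nat.mul_le_mul_left k (by omega)
      have hmain : c ^ (k + 2) ∣ c ^ (k + 1) * B i j := by
        have := (dvd_add_left (Finset.dvd_sum hrest)).1
          (show c ^ (k + 2) ∣ (q : ℤ_[q]) * c ^ k * B i j +
            ∑ m ∈ ((range (q + 1)).erase 0).erase 1,
              (q.choose m : ℤ_[q]) * c ^ (k * m) * (B ^ m) i j by rw [h]; exact dvd_zero _)
        rwa [← pow_succ'] at this
      rw [show k + 2 = k + 1 + 1 from rfl, pow_succ] at hmain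
      exact (mul_dvd_mul_iff_left (pow_ne_zero _ hc)).1 hmain
    · have hrest : ∀ m ∈ ((range (q + 1)).erase 0).erase 1, c ^ (k + 1) ∣
          ((q.choose m : ℕ) : ℤ_[p]) * c ^ (k * m) * (B ^ m) i j := fun m hm => by
        simp only [mem_erase, mem_range] at hm
        refine dvd_mul_of_dvd_left (dvd_mul_of_dvd_right (pow_dvd_pow _ ?_) _) _
        calc k + 1 ≤ k * 2 := by omega
          _ ≤ k * m := Nat.mul_le_mul_left k (by omega)
      have hmain : c ^ (k + 1) ∣ c ^ k * ((q : ℤ_[p]) * B i j) := by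
        have h0 : c ^ (k + 1) ∣ (q : ℤ_[p]) * c ^ k * B i j +
            ∑ m ∈ ((range (q + 1)).erase 0).erase 1,
              (q.choose m : ℤ_[p]) * c ^ (k * m) * (B ^ m) i j := by
          rw [h]; exact dvd_zero _
        have := (dvd_add_left (Finset.dvd_sum hrest)).1 h0
        rwa [mul_comm (q : ℤ_[p]) (c ^ k), mul_assoc] at this
      rw [pow_succ] at hmain
      have hu : IsUnit (q : ℤ_[p]) := by
        rw [← not_not (a := IsUnit _), ← mem_nonunits_iff, ← IsLocalRing.mem_maximalIdeal,
          ← PadicInt.ker_toZMod, RingHom.mem_ker, map_natCast, ZMod.natCast_eq_zero_iff,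
          Nat.prime_dvd_prime_iff_eq hp.out hq]
        exact Ne.symm hqp
      exact hu.dvd_mul_left.1 ((mul_dvd_mul_iff_left (pow_ne_zero _ hc)).1 hmain)
  choose C hC using hgoal
  refine ⟨Matrix.of C, ?_⟩
  ext i j
  simp only [Matrix.add_apply, Matrix.smul_apply, of_apply, smul_eq_mul, hC]
  ring

omit [Fintype n] in
/-- Congruent modulo every power is equal. -/
theorem eq_one_of_congruent {A : Matrix n n ℤ_[p]} (h : ∀ k, Congruent (k + 1) A) : A = 1 := by
  ext i j
  refine PadicInt.ext_of_toZModPow.1 fun k => ?_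
  rcases k with _ | k
  · exact Subsingleton.elim (α := ZMod 1) _ _
  have h1 := congrArg (fun Q => Q i j) ((congruent_iff_map _ A).1 (h k))
  simp only [Matrix.map_apply] at h1
  rw [h1]
  by_cases e : i = j <;> simp [Matrix.one_apply, e]

/-- Reduction modulo `p ^ k`. -/
def reduction (n : Type*) [Fintype n] [DecidableEq n] (p : ℕ) [Fact p.Prime] (k : ℕ) :
    GL n ℤ_[p] →* GL n (ZMod (p ^ k)) :=
  Matrix.GeneralLinearGroup.map (PadicInt.toZModPow k)

theorem coe_reduction (k : ℕ) (g : GL n ℤ_[p]) :
    (reduction n p k g : Matrix n n (ZMod (p ^ k))) =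
      (g : Matrix n n ℤ_[p]).map (PadicInt.toZModPow k) := rfl

/-- **The congruence kernel is torsion free.** -/
theorem eq_one_of_torsion (hp2 : p ≠ 2) {g : GL n ℤ_[p]} (hg : reduction n p 1 g = 1)
    (hf : IsOfFinOrder g) : g = 1 := by
  by_contra hne
  obtain ⟨q, hq, hqd⟩ := Nat.exists_prime_and_dvd (n := orderOf g) fun e =>
    hne (orderOf_eq_one_iff.1 e)
  have hg' : reduction n p 1 (g ^ (orderOf g / q)) = 1 := by rw [map_pow, hg, one_pow]
  have hgq : (g ^ (orderOf g / q)) ^ q = 1 := by
    rw [← pow_mul, Nat.div_mul_cancel hqd, pow_orderOf_eq_one]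
  set A := ((g ^ (orderOf g / q) : GL n ℤ_[p]) : Matrix n n ℤ_[p])
  have hAq : A ^ q = 1 := by
    rw [← Units.val_pow_eq_pow_val, hgq, Units.val_one]
  have hall : ∀ k, Congruent (k + 1) A := by
    intro k
    induction k with
    | zero => exact (congruent_iff_map 1 A).2 (by rw [← coe_reduction, hg', Units.val_one])
    | succ k ih => exact congruent_succ hp2 (Nat.succ_ne_zero k) hq ih hAq
  have hone : g ^ (orderOf g / q) = 1 := Units.ext (eq_one_of_congruent hall)
  have := Nat.le_of_dvd (Nat.div_pos (Nat.le_of_dvd hf.orderOf_pos hqd) hq.pos)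
    (orderOf_dvd_of_pow_eq_one hone)
  exact absurd (Nat.div_lt_self hf.orderOf_pos hq.one_lt) (not_lt.2 this)

/-- Reductions separate the elements. -/
theorem exists_reduction_ne_one {g : GL n ℤ_[p]} (hg : g ≠ 1) : ∃ k, reduction n p k g ≠ 1 := by
  by_contra h
  push Not at h
  exact hg (Units.ext (eq_one_of_congruent fun k => (congruent_iff_map _ _).2
    (by rw [← coe_reduction, h (k + 1), Units.val_one])))

/-- **A finitely generated linear group in characteristic zero embeds into `GL n ℤ_p`**, `p`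
odd. -/
theorem exists_hom_padic {K : Type*} [Field K] [CharZero K] {G : Subgroup (GL n K)} (hG : G.FG) :
    ∃ (p : ℕ) (_ : Fact p.Prime), p ≠ 2 ∧ ∃ f : G →* GL n ℤ_[p], Function.Injective f := by
  classical
  obtain ⟨s, hs⟩ := hG
  set E : Finset K := s.biUnion fun g => Finset.univ.image (fun ij : n × n =>
    (g : Matrix n n K) ij.1 ij.2) ∪ Finset.univ.image fun ij : n × n =>
    ((g⁻¹ : GL n K) : Matrix n n K) ij.1 ij.2
  obtain ⟨p, hp, hp2, L, φ, hE⟩ := FA.SkolemMahlerLech.exists_padic_embedding E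
  haveI := hp
  set R : Subring L := (PadicInt.subring p).comap φ
  set ι : R →+* K := L.subtype.comp R.subtype
  set ψ : R →+* ℤ_[p] := (φ.comp R.subtype).codRestrict (PadicInt.subring p) fun x => x.2
  have hψ : Function.Injective ψ := fun x y h =>
    Subtype.ext (φ.injective (congrArg (fun z : ℤ_[p] => (z : ℚ_[p])) h :))
  have hι : Function.Injective ι := L.subtype_injective.comp Subtype.val_injective
  have hmem : ∀ x ∈ E, ∃ y : R, ι y = x := fun x hx => by
    obtain ⟨h, hn⟩ := hE x hx
    exact ⟨⟨⟨x, h⟩, hn⟩, rfl⟩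
  have hlift : ∀ g ∈ G, ∃ M M' : Matrix n n R,
      M.map ι = (g : Matrix n n K) ∧ M'.map ι = ((g⁻¹ : GL n K) : Matrix n n K) := by
    intro g hg
    rw [← hs] at hg
    induction hg using Subgroup.closure_induction with
    | mem x hx =>
      have h1 : ∀ i j, ∃ y : R, ι y = (x : Matrix n n K) i j := fun i j => hmem _
        (Finset.mem_biUnion.2 ⟨x, hx, Finset.mem_union_left _
          (Finset.mem_image.2 ⟨(i, j), Finset.mem_univ _, rfl⟩)⟩)
      have h2 : ∀ i j, ∃ y : R, ι y = ((x⁻¹ : GL n K) : Matrix n n K) i j := fun i j => hmem _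
        (Finset.mem_biUnion.2 ⟨x, hx, Finset.mem_union_right _
          (Finset.mem_image.2 ⟨(i, j), Finset.mem_univ _, rfl⟩)⟩)
      choose M hM using h1
      choose M' hM' using h2
      exact ⟨Matrix.of M, Matrix.of M', Matrix.ext hM, Matrix.ext hM'⟩
    | one =>
      exact ⟨1, 1, by rw [Matrix.map_one _ (map_zero ι) (map_one ι), Units.val_one],
        by rw [Matrix.map_one _ (map_zero ι) (map_one ι), inv_one, Units.val_one]⟩
    | mul x y _ _ hx hy =>
      obtain ⟨M, M', hM, hM'⟩ := hx
      obtain ⟨N, N', hN, hN'⟩ := hy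
      exact ⟨M * N, N' * M', by rw [Matrix.map_mul, hM, hN, Units.val_mul],
        by rw [Matrix.map_mul, hN', hM', _root_.mul_inv_rev, Units.val_mul]⟩
    | inv x _ hx =>
      obtain ⟨M, M', hM, hM'⟩ := hx
      exact ⟨M', M, hM', by rw [inv_inv]; exact hM⟩
  choose M M' hM hM' using fun g : G => hlift g g.2
  have hinjM : Function.Injective fun A : Matrix n n R => A.map ι := Matrix.map_injective hι
  set f : G →* Matrix n n ℤ_[p] :=
    { toFun := fun g => (M g).map ψ
      map_one' := by
        rw [show M 1 = 1 from hinjM (by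
          show (M 1).map ι = (1 : Matrix n n R).map ι
          rw [hM, Matrix.map_one _ (map_zero ι) (map_one ι)]; rfl),
          Matrix.map_one _ (map_zero ψ) (map_one ψ)]
      map_mul' := fun g h => by
        rw [show M (g * h) = M g * M h from hinjM (by
          show (M (g * h)).map ι = (M g * M h).map ι
          rw [hM, Matrix.map_mul, hM, hM]; rfl), Matrix.map_mul] }
  refine ⟨p, hp, hp2, f.toHomUnits, fun g h e => ?_⟩
  have h1 : M g = M h := Matrix.map_injective hψ (congrArg Units.val e :)
  exact Subtype.ext (Units.ext (by rw [← hM g, ← hM h, h1]))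

end FA.LinearGroups
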