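import Mathlib.LinearAlgebra.Matrix.Charpoly.Eigs
import Mathlib.FieldTheory.IsAlgClosed.Spectrum
import Mathlib.LinearAlgebra.Matrix.GeneralLinearGroup.Defs
import Mathlib.LinearAlgebra.Dimension.Constructions
import Mathlib.RingTheory.Polynomial.Cyclotomic.Roots
import Mathlib.RingTheory.RootsOfUnity.AlgebraicallyClosed
import Mathlib.RingTheory.RootsOfUnity.Complex
import Mathlib.FieldTheory.IntermediateField.Adjoin.Basic
import Mathlib.NumberTheory.NumberField.Basic
import Mathlib.GroupTheory.OrderOfElement

/-!
# Subgroups of bounded exponent of linear groups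

Over a field of characteristic zero a matrix of finite order whose trace is `n` is `1`, since its
eigenvalues are roots of unity. So in a group `G ≤ GL n K` of exponent `e` an element is determined
by the traces of its products with a basis of the span of `G`, each one of at most `e ^ n` numbers:
`|G| ≤ e ^ n³`. Over a number field of degree `d` an element of order a prime power `q` has an
eigenvalue of degree `φ q ≤ n d`, so every element of finite order is killed by `(2 n d)!`.
-/

set_option autoImplicit false
set_option linter.style.haveILetI false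

noncomputable section

open Polynomial Matrix

namespace FA.LinearGroups

/-- `k` roots of unity add up to `k` only if all are `1`. -/
theorem eq_one_of_sum_eq {F : Type*} [Field F] [IsAlgClosed F] [CharZero F] {e : ℕ} (he : e ≠ 0)
    {s : Multiset F} (hs : ∀ x ∈ s, x ^ e = 1) (hsum : s.sum = (Multiset.card s : F)) :
    ∀ x ∈ s, x = 1 := by
  classical
  haveI : NeZero e := ⟨he⟩
  obtain ⟨z, hz⟩ := HasEnoughRootsOfUnity.exists_primitiveRoot F e
  choose i _ hi using fun x : {x // x ∈ s} => hz.eq_pow_of_pow_eq_one (hs x.1 x.2)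
  set w : F → ℕ := fun x => if h : x ∈ s then i ⟨x, h⟩ else 0
  have hw : ∀ x ∈ s, z ^ w x = x := fun x hx => by simp only [w, dif_pos hx]; exact hi ⟨x, hx⟩
  set P : ℚ[X] := (s.map fun x => X ^ w x).sum - C (Multiset.card s : ℚ)
  have hP : aeval z P = 0 := by
    simp only [P, map_sub, map_multiset_sum, Multiset.map_map, Function.comp_def, map_pow,
      aeval_X, map_natCast]
    rw [Multiset.map_congr rfl hw, Multiset.map_id', hsum, sub_self]
  set z' : ℂ := Complex.exp (2 * Real.pi * Complex.I / e)
  have hz' : IsPrimitiveRoot z' e := Complex.isPrimitiveRoot_exp e he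
  have hP' : aeval z' P = 0 := by
    refine aeval_eq_zero_of_dvd_aeval_eq_zero (minpoly.dvd ℚ z hP) ?_
    rw [← cyclotomic_eq_minpoly_rat hz (Nat.pos_of_ne_zero he),
      cyclotomic_eq_minpoly_rat hz' (Nat.pos_of_ne_zero he)]
    exact minpoly.aeval ℚ z'
  simp only [P, map_sub, map_multiset_sum, Multiset.map_map, Function.comp_def, map_pow, aeval_X,
    map_natCast, sub_eq_zero] at hP'
  have hre : ∀ x, (z' ^ w x).re ≤ 1 := fun x => (Complex.re_le_norm _).trans_eq
    (Complex.norm_eq_one_of_pow_eq_one (by
      rw [← pow_mul, mul_comm, pow_mul, hz'.pow_eq_one, one_pow]) he)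
  have hall : ∀ x ∈ s, (z' ^ w x).re = 1 := by
    intro x hx
    refine le_antisymm (hre x) (not_lt.1 fun hlt => ?_)
    obtain ⟨t, rfl⟩ := Multiset.exists_cons_of_mem hx
    have h1 := congrArg Complex.re hP'
    rw [← Complex.coe_reAddGroupHom, map_multiset_sum, Multiset.map_map] at h1
    simp only [Multiset.map_cons, Multiset.sum_cons, Multiset.card_cons, Function.comp_apply,
      Complex.coe_reAddGroupHom, Nat.cast_add, Nat.cast_one, Complex.add_re, Complex.natCast_re,
      Complex.one_re] at h1
    have h2 := Multiset.sum_le_card_nsmul (t.map fun y => (z' ^ w y).re) 1 fun y hy => by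
      obtain ⟨x', -, rfl⟩ := Multiset.mem_map.1 hy
      exact hre x'
    rw [Multiset.card_map, nsmul_one] at h2
    change (z' ^ w x).re + (t.map fun y => (z' ^ w y).re).sum = _ at h1
    linarith
  intro x hx
  have hone : z' ^ w x = 1 := by
    have hn : ‖z' ^ w x‖ = 1 := Complex.norm_eq_one_of_pow_eq_one (by
      rw [← pow_mul, mul_comm, pow_mul, hz'.pow_eq_one, one_pow]) he
    have him : (z' ^ w x).im = 0 :=
      Complex.abs_re_eq_norm.1 (by rw [hall x hx, abs_one, hn])
    exact Complex.ext (hall x hx) him
  rw [← hw x hx]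
  exact (hz.pow_eq_one_iff_dvd _).2 ((hz'.pow_eq_one_iff_dvd _).1 hone)

variable {n : Type*} [Fintype n] [DecidableEq n]

/-- The eigenvalues of a matrix with `A ^ e = 1` are `e`th roots of unity. -/
theorem pow_eq_one_of_mem_roots {F : Type*} [Field F] {e : ℕ} {A : Matrix n n F}
    (hA : A ^ e = 1) {x : F} (hx : x ∈ A.charpoly.roots) : x ^ e = 1 := by
  cases isEmpty_or_nonempty n
  · rw [A.charpoly_isEmpty] at hx
    simp at hx
  have h1 := spectrum.pow_mem_pow A e
    (mem_spectrum_iff_isRoot_charpoly.2 (isRoot_of_mem_roots hx))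
  rw [hA, spectrum.one_eq] at h1
  exact h1

/-- **Finite order and trace `n`** make a matrix the identity. -/
theorem eq_one_of_trace {F : Type*} [Field F] [IsAlgClosed F] [CharZero F] {e : ℕ} (he : e ≠ 0)
    {A : Matrix n n F} (hA : A ^ e = 1) (htr : A.trace = (Fintype.card n : F)) : A = 1 := by
  have hcard : Multiset.card A.charpoly.roots = Fintype.card n := by
    rw [← charpoly_natDegree_eq_dim A]
    exact (IsAlgClosed.splits A.charpoly).natDegree_eq_card_roots.symm
  have hone := eq_one_of_sum_eq he (fun x hx => pow_eq_one_of_mem_roots hA hx)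
    (by rw [← trace_eq_sum_roots_charpoly, htr, hcard])
  have hchar : A.charpoly = (X - C (1 : F)) ^ Fintype.card n := by
    conv_lhs => rw [(IsAlgClosed.splits A.charpoly).eq_prod_roots_of_monic A.charpoly_monic]
    rw [Multiset.map_congr rfl (fun x hx => by rw [hone x hx] : ∀ x ∈ A.charpoly.roots,
      X - C x = X - C (1 : F)), Multiset.map_const', Multiset.prod_replicate, hcard]
  have hsq : Squarefree (minpoly F A) :=
    ((X_pow_sub_one_separable_iff.2 (Nat.cast_ne_zero.2 he)).squarefree).squarefree_of_dvd
      (minpoly.dvd F A (by simp [hA]))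
  rcases eq_or_ne (Fintype.card n) 0 with h0 | h0
  · haveI := Fintype.card_eq_zero_iff.1 h0
    exact Subsingleton.elim _ _
  have hd : minpoly F A ∣ X - C (1 : F) := (hsq.dvd_pow_iff_dvd h0).1
    (hchar ▸ minpoly.dvd F A A.aeval_self_charpoly)
  have := aeval_eq_zero_of_dvd_aeval_eq_zero hd (minpoly.aeval F A)
  simpa [sub_eq_zero] using this

variable {K : Type*} [Field K] [CharZero K]

/-- **Finite order and trace `n`** make a matrix the identity. -/
theorem eq_one_of_trace' {e : ℕ} (he : e ≠ 0) {A : Matrix n n K} (hA : A ^ e = 1)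
    (htr : A.trace = (Fintype.card n : K)) : A = 1 := by
  set ι := algebraMap K (AlgebraicClosure K)
  have h := eq_one_of_trace (A := A.map ι) he
    (by rw [← RingHom.mapMatrix_apply, ← map_pow, hA, map_one])
    (by rw [← map_natCast ι, ← htr]; exact (AddMonoidHom.map_trace ι.toAddMonoidHom A).symm)
  exact Matrix.map_injective ι.injective (h.trans (Matrix.map_one ι (map_zero ι) (map_one ι)).symm)

/-- The traces of the matrices with `A ^ e = 1` are among `e ^ n` numbers. -/
theorem exists_traces (n : Type*) [Fintype n] [DecidableEq n] (K : Type*) [Field K] [CharZero K]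
    {e : ℕ} (he : e ≠ 0) :
    ∃ T : Finset K, T.card ≤ e ^ Fintype.card n ∧
      ∀ A : Matrix n n K, A ^ e = 1 → A.trace ∈ T := by
  classical
  set ι := algebraMap K (AlgebraicClosure K)
  set μ := Polynomial.nthRootsFinset e (1 : AlgebraicClosure K)
  set S : Finset (AlgebraicClosure K) := Finset.univ.image
    fun f : Fin (Fintype.card n) → μ => ∑ i, (f i : AlgebraicClosure K)
  refine ⟨S.preimage ι ι.injective.injOn, ?_, fun A hA => Finset.mem_preimage.2 ?_⟩
  · refine (Finset.card_le_card_of_injOn ι (fun x hx => Finset.mem_preimage.1 hx)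
      ι.injective.injOn).trans (Finset.card_image_le.trans ?_)
    rw [Finset.card_univ, Fintype.card_fun, Fintype.card_fin, Fintype.card_coe]
    refine Nat.pow_le_pow_left ?_ _
    simp only [μ, nthRootsFinset_def]
    exact (Multiset.toFinset_card_le _).trans (card_nthRoots e 1)
  set B := A.map ι
  have hB : (A.map ι) ^ e = 1 := by rw [← RingHom.mapMatrix_apply, ← map_pow, hA, map_one]
  have hlen : B.charpoly.roots.toList.length = Fintype.card n := by
    rw [Multiset.length_toList, ← charpoly_natDegree_eq_dim B]
    exact (IsAlgClosed.splits B.charpoly).natDegree_eq_card_roots.symm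
  have htr : ι A.trace = B.charpoly.roots.toList.sum := by
    rw [Multiset.sum_toList, ← trace_eq_sum_roots_charpoly]
    exact AddMonoidHom.map_trace ι.toAddMonoidHom A
  refine Finset.mem_image.2 ⟨fun i => ⟨B.charpoly.roots.toList[(i : ℕ)]'(hlen.symm ▸ i.2), ?_⟩,
    Finset.mem_univ _, ?_⟩
  · rw [mem_nthRootsFinset (Nat.pos_of_ne_zero he)]
    exact pow_eq_one_of_mem_roots hB (Multiset.mem_toList.1 (List.getElem_mem _))
  · rw [htr, ← Fin.sum_univ_getElem]
    exact (Fin.sum_congr' (fun j : Fin B.charpoly.roots.toList.length =>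
      B.charpoly.roots.toList[(j : ℕ)]) hlen.symm).symm.trans rfl |>.symm

/-- **Burnside**: a subgroup of exponent `e` has at most `e ^ n³` elements. -/
theorem finite_of_exponent {e : ℕ} (he : e ≠ 0) (G : Subgroup (GL n K))
    (h : ∀ g ∈ G, g ^ e = 1) :
    Finite G ∧ Nat.card G ≤ e ^ Fintype.card n ^ 3 := by
  classical
  obtain ⟨T, hT, hmem⟩ := exists_traces n K he
  obtain ⟨b, hbsub, hspan, hli⟩ := exists_linearIndependent K
    ((fun g : GL n K => (g : Matrix n n K)) '' (G : Set (GL n K)))
  haveI : Fintype b := hli.setFinite.fintype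
  have hb : Fintype.card b ≤ Fintype.card n ^ 2 := by
    refine hli.fintype_card_le_finrank.trans_eq ?_
    rw [Module.finrank_matrix, Module.finrank_self, mul_one, sq]
  have hmemT : ∀ (g : G) (x : b), (((g : GL n K) : Matrix n n K) * (x : Matrix n n K)).trace ∈ T :=
    fun g x => by
      obtain ⟨y, hy, hxy⟩ := hbsub x.2
      refine hmem _ ?_
      rw [← hxy, ← Units.val_mul, ← Units.val_pow_eq_pow_val,
        h _ (G.mul_mem g.2 hy), Units.val_one]
  set F : G → b → T := fun g x => ⟨_, hmemT g x⟩
  have hF : Function.Injective F := by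
    intro g g' hgg
    have heq : ∀ x ∈ Submodule.span K b,
        (((g : GL n K) : Matrix n n K) * x).trace = (((g' : GL n K) : Matrix n n K) * x).trace := by
      intro x hx
      induction hx using Submodule.span_induction with
      | mem x hx => exact (congrArg (fun f : b → T => ((f ⟨x, hx⟩ : T) : K)) hgg :)
      | zero => simp
      | add x y _ _ hx hy => rw [mul_add, mul_add, trace_add, trace_add, hx, hy]
      | smul c x _ hx => rw [mul_smul_comm, mul_smul_comm, trace_smul, trace_smul, hx]
    have h1 := heq ((g'⁻¹ : G) : GL n K) (hspan.symm ▸ Submodule.subset_span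
      ⟨_, (g'⁻¹).2, rfl⟩)
    rw [← Units.val_mul, ← Units.val_mul, ← Subgroup.coe_mul, ← Subgroup.coe_mul,
      mul_inv_cancel, Subgroup.coe_one, Units.val_one, trace_one] at h1
    have h2 : ((g * g'⁻¹ : G) : GL n K) = 1 := Units.ext (eq_one_of_trace' he (by
      rw [← Units.val_pow_eq_pow_val, h _ (g * g'⁻¹).2, Units.val_one]) h1)
    exact mul_inv_eq_one.1 (Subtype.ext h2)
  haveI : Finite G := Finite.of_injective F hF
  refine ⟨inferInstance, (Nat.card_le_card_of_injective F hF).trans ?_⟩
  rw [Nat.card_eq_fintype_card, Fintype.card_fun, Fintype.card_coe]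
  calc T.card ^ Fintype.card b ≤ (e ^ Fintype.card n) ^ Fintype.card b :=
        Nat.pow_le_pow_left hT _
    _ = e ^ (Fintype.card n * Fintype.card b) := (pow_mul _ _ _).symm
    _ ≤ e ^ Fintype.card n ^ 3 := Nat.pow_le_pow_right (Nat.pos_of_ne_zero he) (by
        calc Fintype.card n * Fintype.card b ≤ Fintype.card n * Fintype.card n ^ 2 :=
              Nat.mul_le_mul_left _ hb
          _ = Fintype.card n ^ 3 := by ring)

/-- A prime power order `q` forces `φ q ≤ n [K : ℚ]`. -/
theorem totient_le_of_order [NumberField K] {g : GL n K} {p a : ℕ} (hp : p.Prime)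
    (hg : orderOf g = p ^ (a + 1)) :
    (p ^ (a + 1)).totient ≤ Fintype.card n * Module.finrank ℚ K := by
  classical
  set q := p ^ (a + 1) with hq
  set A : Matrix n n K := (g : Matrix n n K)
  set B := A.map (algebraMap K (AlgebraicClosure K)) with hBdef
  have hAq : A ^ q = 1 := by
    rw [← Units.val_pow_eq_pow_val, ← hg, pow_orderOf_eq_one, Units.val_one]
  have hB : B ^ q = 1 := by rw [hBdef, ← RingHom.mapMatrix_apply, ← map_pow, hAq, map_one]
  obtain ⟨z, hz, hzp⟩ : ∃ z ∈ B.charpoly.roots, ¬ z ^ p ^ a = 1 := by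
    by_contra hall
    push Not at hall
    have hlt : p ^ a < q := Nat.pow_lt_pow_succ hp.one_lt
    have hcard : Multiset.card B.charpoly.roots = Fintype.card n := by
      rw [← charpoly_natDegree_eq_dim B]
      exact (IsAlgClosed.splits B.charpoly).natDegree_eq_card_roots.symm
    have hBpa : B ^ p ^ a = 1 := by
      have hsq : Squarefree (minpoly (AlgebraicClosure K) B) :=
        ((X_pow_sub_one_separable_iff.2 (Nat.cast_ne_zero.2
          (pow_ne_zero (a + 1) hp.ne_zero))).squarefree).squarefree_of_dvd
          (minpoly.dvd _ B (by rw [← hq]; simp [hB]))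
      rcases eq_or_ne (Fintype.card n) 0 with h0 | h0
      · haveI := Fintype.card_eq_zero_iff.1 h0
        exact Subsingleton.elim _ _
      have hd : minpoly (AlgebraicClosure K) B ∣ (X ^ p ^ a - 1) ^ Fintype.card n := by
        refine (minpoly.dvd _ B B.aeval_self_charpoly).trans ?_
        conv_lhs => rw [(IsAlgClosed.splits B.charpoly).eq_prod_roots_of_monic B.charpoly_monic]
        rw [← hcard, ← Multiset.prod_replicate, ← Multiset.map_const']
        refine Multiset.prod_dvd_prod_of_dvd _ _ fun x hx => ?_
        rw [dvd_iff_isRoot, IsRoot, eval_sub, eval_pow, eval_X, eval_one, hall x hx, sub_self]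
      have := aeval_eq_zero_of_dvd_aeval_eq_zero ((hsq.dvd_pow_iff_dvd h0).1 hd)
        (minpoly.aeval _ B)
      simpa [sub_eq_zero] using this
    have hApa : A ^ p ^ a = 1 := Matrix.map_injective (algebraMap K (AlgebraicClosure K)).injective
      (show (A ^ p ^ a).map _ = (1 : Matrix n n K).map _ by
        rw [← RingHom.mapMatrix_apply, map_pow, ← RingHom.mapMatrix_apply, map_one]; exact hBpa)
    have h1 : g ^ p ^ a = 1 := Units.ext (by rw [Units.val_pow_eq_pow_val, hApa, Units.val_one])
    have := Nat.le_of_dvd (pow_pos hp.pos a) (orderOf_dvd_of_pow_eq_one h1)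
    omega
  have hzq : z ^ q = 1 := pow_eq_one_of_mem_roots hB hz
  have hprim : IsPrimitiveRoot z q := by
    haveI := Fact.mk hp
    rw [IsPrimitiveRoot.iff_orderOf, hq]
    exact orderOf_eq_prime_pow hzp hzq
  have hroot : aeval z A.charpoly = 0 := by
    have h := isRoot_of_mem_roots hz
    rw [hBdef, charpoly_map] at h
    rwa [aeval_def, eval₂_eq_eval_map]
  have hzK : IsIntegral K z := ⟨A.charpoly, A.charpoly_monic, by rwa [← aeval_def]⟩
  have hK : Module.finrank K (IntermediateField.adjoin K {z}) ≤ Fintype.card n := by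
    rw [IntermediateField.adjoin.finrank hzK, ← charpoly_natDegree_eq_dim A]
    exact natDegree_le_of_dvd (minpoly.dvd K z hroot) A.charpoly_monic.ne_zero
  set L := IntermediateField.adjoin K {z}
  haveI : FiniteDimensional K L := IntermediateField.adjoin.finiteDimensional hzK
  haveI : FiniteDimensional ℚ L := FiniteDimensional.trans ℚ K L
  set z' : L := ⟨z, IntermediateField.mem_adjoin_simple_self K z⟩
  have hprim' : IsPrimitiveRoot z' q := IsPrimitiveRoot.of_map_of_injective
    (f := L.val) (by exact hprim) L.val.injective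
  calc q.totient = (minpoly ℚ z').natDegree := by
        rw [← cyclotomic_eq_minpoly_rat hprim' (pow_pos hp.pos _), natDegree_cyclotomic]
    _ ≤ Module.finrank ℚ L := minpoly.natDegree_le z'
    _ = Module.finrank ℚ K * Module.finrank K L := (Module.finrank_mul_finrank ℚ K L).symm
    _ ≤ Fintype.card n * Module.finrank ℚ K := by
        rw [mul_comm]; exact Nat.mul_le_mul_right _ hK

/-- Over a number field the elements of finite order are killed by `(2 n d)!`. -/
theorem pow_factorial_eq_one [NumberField K] {g : GL n K} (hg : IsOfFinOrder g) :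
    g ^ (2 * (Fintype.card n * Module.finrank ℚ K)).factorial = 1 := by
  refine orderOf_dvd_iff_pow_eq_one.1 ((Nat.dvd_iff_prime_pow_dvd_dvd _ _).2 fun p k hp hd => ?_)
  rcases k with _ | a
  · simp
  refine Nat.dvd_factorial (pow_pos hp.pos _) ?_
  set m := orderOf g
  have hm : 0 < m := hg.orderOf_pos
  have hord : orderOf (g ^ (m / p ^ (a + 1))) = p ^ (a + 1) := orderOf_pow_orderOf_div hm.ne' hd
  have h := totient_le_of_order hp hord
  rw [Nat.totient_prime_pow_succ hp] at h
  have h2 : p ≤ 2 * (p - 1) := by
    have := hp.two_le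
    omega
  calc p ^ (a + 1) = p ^ a * p := pow_succ p a
    _ ≤ p ^ a * (2 * (p - 1)) := Nat.mul_le_mul_left _ h2
    _ = 2 * (p ^ a * (p - 1)) := by ring
    _ ≤ _ := Nat.mul_le_mul_left 2 h

end FA.LinearGroups
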