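import Mathlib.Data.Nat.Totient
import Mathlib.Data.Nat.Factorization.Induction
import Mathlib.Data.Nat.Factorization.Basic
import Mathlib.Algebra.GCDMonoid.Finset
import Mathlib.Algebra.GCDMonoid.Nat
import Mathlib.Tactic

/-!
# The dimension function of the crystallographic restriction

The sum of `φ(p ^ k)` over the prime powers exactly dividing `m`, the factor `2 ^ 1` omitted.
-/

set_option autoImplicit false

namespace FA.LinearGroups.Crystallographic

/-- The contribution of `p ^ k`. -/
def weight (p k : ℕ) : ℕ := if k = 0 ∨ (p = 2 ∧ k = 1) then 0 else Nat.totient (p ^ k)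

/-- The least dimension of an element of order `m` (for `m ≠ 2`). -/
noncomputable def crystalDim (m : ℕ) : ℕ := m.factorization.sum weight

theorem weight_zero (p : ℕ) : weight p 0 = 0 := if_pos (Or.inl rfl)

theorem crystalDim_eq_sum (m : ℕ) {s : Finset ℕ} (hs : m.primeFactors ⊆ s) :
    crystalDim m = ∑ p ∈ s, weight p (m.factorization p) :=
  Finsupp.sum_of_support_subset _ (by rwa [Nat.support_factorization]) _ fun p _ => weight_zero p

theorem crystalDim_prime_pow {p : ℕ} (hp : p.Prime) (k : ℕ) :
    crystalDim (p ^ k) = weight p k := by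
  rw [crystalDim, hp.factorization_pow, Finsupp.sum_single_index (weight_zero p)]

theorem crystalDim_one : crystalDim 1 = 0 := by
  rw [← pow_zero 2, crystalDim_prime_pow Nat.prime_two, weight_zero]

theorem crystalDim_two : crystalDim 2 = 0 := by
  rw [← pow_one 2, crystalDim_prime_pow Nat.prime_two]
  exact if_pos (Or.inr ⟨rfl, rfl⟩)

theorem crystalDim_mul {a b : ℕ} (hab : Nat.Coprime a b) :
    crystalDim (a * b) = crystalDim a + crystalDim b := by
  rw [crystalDim, crystalDim, crystalDim, Nat.factorization_mul_of_coprime hab]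
  classical
  refine Finsupp.sum_add_index_of_disjoint ?_ weight
  rw [Nat.support_factorization, Nat.support_factorization]
  exact hab.disjoint_primeFactors

theorem crystalDim_lcm_le {a b : ℕ} (ha : a ≠ 0) (hb : b ≠ 0) :
    crystalDim (Nat.lcm a b) ≤ crystalDim a + crystalDim b := by
  have h0 : Nat.lcm a b ≠ 0 := Nat.lcm_ne_zero ha hb
  have hs : ∀ {c : ℕ}, c ∣ Nat.lcm a b → c.primeFactors ⊆ (Nat.lcm a b).primeFactors :=
    fun hc => Nat.primeFactors_mono hc h0
  rw [crystalDim_eq_sum _ subset_rfl, crystalDim_eq_sum _ (hs (Nat.dvd_lcm_left a b)),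
    crystalDim_eq_sum _ (hs (Nat.dvd_lcm_right a b)), ← Finset.sum_add_distrib]
  refine Finset.sum_le_sum fun p _ => ?_
  rw [Nat.factorization_lcm ha hb, Finsupp.sup_apply]
  rcases le_total (a.factorization p) (b.factorization p) with h | h
  · rw [sup_eq_right.2 h]
    exact Nat.le_add_left _ _
  · rw [sup_eq_left.2 h]
    exact Nat.le_add_right _ _

theorem crystalDim_le_totient (m : ℕ) : crystalDim m ≤ Nat.totient m := by
  induction m using Nat.recOnPrimeCoprime with
  | zero => simp [crystalDim]
  | prime_pow p n hp =>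
    rw [crystalDim_prime_pow hp, weight]
    split_ifs <;> simp
  | coprime a b ha hb hab iha ihb =>
    rw [crystalDim_mul hab, Nat.totient_mul hab]
    have small : ∀ c : ℕ, Nat.totient c = 1 → crystalDim c = 0 := fun c hc => by
      rcases Nat.totient_eq_one_iff.1 hc with rfl | rfl
      exacts [crystalDim_one, crystalDim_two]
    have pa : 0 < Nat.totient a := Nat.totient_pos.2 (by omega)
    have pb : 0 < Nat.totient b := Nat.totient_pos.2 (by omega)
    rcases eq_or_ne (Nat.totient a) 1 with h | h
    · rw [small a h, h, zero_add, one_mul]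
      exact ihb
    rcases eq_or_ne (Nat.totient b) 1 with h' | h'
    · rw [small b h', h', add_zero, mul_one]
      exact iha
    exact (add_le_add iha ihb).trans (Nat.add_le_mul (by omega) (by omega))

theorem crystalDim_finset_lcm_le (S : Finset ℕ) (hS : ∀ d ∈ S, d ≠ 0) :
    crystalDim (S.lcm id) ≤ ∑ d ∈ S, Nat.totient d := by
  classical
  induction S using Finset.induction_on with
  | empty => simp [crystalDim_one]
  | insert d S hd ih =>
    rw [Finset.lcm_insert, Finset.sum_insert hd, id_eq, lcm_eq_nat_lcm]
    have hd0 : d ≠ 0 := hS d (Finset.mem_insert_self _ _)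
    have hS0 : ∀ e ∈ S, e ≠ 0 := fun e he => hS e (Finset.mem_insert_of_mem he)
    have h0 : S.lcm id ≠ 0 := fun h => by
      rw [Finset.lcm_eq_zero_iff] at h
      simp only [id_eq, exists_eq_right] at h
      exact hS0 0 h rfl
    exact (crystalDim_lcm_le hd0 h0).trans (add_le_add (crystalDim_le_totient d) (ih hS0))

theorem weight_mono {p k l : ℕ} (h : k ≤ l) : weight p k ≤ weight p l := by
  rcases Nat.eq_zero_or_pos k with rfl | hk
  · simp [weight_zero]
  unfold weight
  split_ifs with h1 h2
  · exact le_rfl
  · exact Nat.zero_le _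
  · exfalso
    omega
  · rcases Nat.eq_zero_or_pos p with rfl | hp
    · simp [hk.ne', (hk.trans_le h).ne']
    · exact Nat.le_of_dvd (Nat.totient_pos.2 (pow_pos hp l))
        (Nat.totient_dvd_of_dvd (pow_dvd_pow p h))

theorem weight_le_crystalDim {p k m : ℕ} (hm : m ≠ 0) (hp : p.Prime) (h : p ^ k ∣ m) :
    weight p k ≤ crystalDim m := by
  have hk : k ≤ m.factorization p := (hp.pow_dvd_iff_le_factorization hm).1 h
  refine (weight_mono hk).trans ?_
  rcases Nat.eq_zero_or_pos (m.factorization p) with h0 | h0
  · simp [h0, weight_zero]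
  rw [crystalDim_eq_sum m subset_rfl]
  refine Finset.single_le_sum (f := fun q => weight q (m.factorization q))
    (fun _ _ => Nat.zero_le _) ?_
  rwa [← Nat.support_factorization, Finsupp.mem_support_iff, ← Nat.pos_iff_ne_zero]

end FA.LinearGroups.Crystallographic
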