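import Fermat.Agent.LinearGroups.CrystallographicDegree
import Mathlib.Analysis.Complex.Polynomial.Basic
import Mathlib.RingTheory.Polynomial.Cyclotomic.Roots
import Mathlib.RingTheory.RootsOfUnity.Complex
import Mathlib.RingTheory.AdjoinRoot
import Mathlib.LinearAlgebra.Matrix.Charpoly.Minpoly
import Mathlib.LinearAlgebra.Matrix.Reindex

/-!
# The crystallographic restriction

An element of order `m` of `GL_n(ℚ)` has a minimal polynomial that is a product of cyclotomic
polynomials whose indices have least common multiple `m`; conversely block sums of companion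
matrices of cyclotomic polynomials, and negation, give integral elements of every allowed order.
-/

set_option autoImplicit false

noncomputable section

open Polynomial

namespace FA.LinearGroups.Crystallographic

/-- There is an integral matrix of size `k` and order `m`. -/
def HasOrder (m k : ℕ) : Prop := ∃ A : Matrix (Fin k) (Fin k) ℤ, orderOf A = m

theorem hasOrder_one (k : ℕ) : HasOrder 1 k := ⟨1, orderOf_one⟩

/-- Block sum. -/
def blockHom (a b : ℕ) :
    Matrix (Fin a) (Fin a) ℤ × Matrix (Fin b) (Fin b) ℤ →*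
      Matrix (Fin (a + b)) (Fin (a + b)) ℤ where
  toFun z := Matrix.reindexAlgEquiv ℤ ℤ finSumFinEquiv (Matrix.fromBlocks z.1 0 0 z.2)
  map_one' := by simp [Matrix.fromBlocks_one]
  map_mul' z w := by
    rw [← map_mul]
    simp [Matrix.fromBlocks_multiply]

theorem blockHom_injective (a b : ℕ) : Function.Injective (blockHom a b) := fun z w h => by
  have := (Matrix.reindexAlgEquiv ℤ ℤ finSumFinEquiv).injective h
  rw [Matrix.fromBlocks_inj] at this
  exact Prod.ext this.1 this.2.2.2

theorem HasOrder.lcm {m l j k : ℕ} (hm : HasOrder m j) (hl : HasOrder l k) :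
    HasOrder (Nat.lcm m l) (j + k) := by
  obtain ⟨A, rfl⟩ := hm
  obtain ⟨B, rfl⟩ := hl
  exact ⟨blockHom j k (A, B), by rw [orderOf_injective _ (blockHom_injective j k), Prod.orderOf]⟩

theorem HasOrder.mono {m j k : ℕ} (hm : HasOrder m j) (h : j ≤ k) : HasOrder m k := by
  obtain ⟨d, rfl⟩ := Nat.exists_eq_add_of_le h
  simpa using hm.lcm (hasOrder_one d)

theorem HasOrder.double {m k : ℕ} (hm : HasOrder m k) (hodd : Odd m) (hk : 0 < k) :
    HasOrder (2 * m) k := by
  obtain ⟨A, rfl⟩ := hm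
  have h2 : orderOf (-1 : Matrix (Fin k) (Fin k) ℤ) = 2 :=
    orderOf_eq_prime (by simp) fun h => by
      have := congrFun (congrFun h ⟨0, hk⟩) ⟨0, hk⟩
      simp at this
  refine ⟨-1 * A, ?_⟩
  rw [Commute.orderOf_mul_eq_mul_orderOf_of_coprime (Commute.neg_one_left A)
    (h2.symm ▸ (Nat.coprime_two_left.2 hodd)), h2]

theorem hasOrder_cyclotomic {q : ℕ} (hq : 0 < q) : HasOrder q (Nat.totient q) := by
  have hmon := cyclotomic.monic q ℤ
  let pb := AdjoinRoot.powerBasis' hmon
  let b := pb.basis.reindex (finCongr (show pb.dim = Nat.totient q by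
    simp [pb, natDegree_cyclotomic]))
  refine ⟨Algebra.leftMulMatrix b (AdjoinRoot.root (cyclotomic q ℤ)), ?_⟩
  have hinj : Function.Injective (Algebra.leftMulMatrix b).toRingHom.toMonoidHom :=
    Algebra.leftMulMatrix_injective b
  refine (orderOf_injective _ hinj (AdjoinRoot.root (cyclotomic q ℤ))).trans ?_
  have hpow : AdjoinRoot.root (cyclotomic q ℤ) ^ q = 1 := by
    have h := (AdjoinRoot.aeval_eq (f := cyclotomic q ℤ) (X ^ q - 1)).trans
      (AdjoinRoot.mk_eq_zero.2 (cyclotomic.dvd_X_pow_sub_one q ℤ))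
    simpa [sub_eq_zero] using h
  obtain ⟨ζ, hζ⟩ : ∃ ζ : ℂ, IsPrimitiveRoot ζ q := ⟨_, Complex.isPrimitiveRoot_exp q hq.ne'⟩
  have : NeZero q := ⟨hq.ne'⟩
  have hroot : (cyclotomic q ℤ).eval₂ (Int.castRingHom ℂ) ζ = 0 := by
    rw [eval₂_eq_eval_map, map_cyclotomic]
    exact hζ.isRoot_cyclotomic hq
  have h1 := orderOf_map_dvd
    (AdjoinRoot.lift (Int.castRingHom ℂ) ζ hroot).toMonoidHom (AdjoinRoot.root (cyclotomic q ℤ))
  simp only [RingHom.toMonoidHom_eq_coe, MonoidHom.coe_coe, AdjoinRoot.lift_root] at h1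
  rw [← hζ.eq_orderOf] at h1
  exact Nat.dvd_antisymm (orderOf_dvd_of_pow_eq_one hpow) h1

theorem hasOrder_crystalDim (m : ℕ) : 0 < m → Odd m ∨ 4 ∣ m → HasOrder m (crystalDim m) := by
  induction m using Nat.recOnPrimeCoprime with
  | zero => exact fun h => absurd h (lt_irrefl 0)
  | prime_pow p n hp =>
    intro _ hcase
    rw [crystalDim_prime_pow hp, weight]
    split_ifs with h
    · rcases h with rfl | ⟨rfl, rfl⟩
      · exact hasOrder_one 0
      · exact absurd hcase (by decide)
    · exact hasOrder_cyclotomic (pow_pos hp.pos n)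
  | coprime a b ha hb hab iha ihb =>
    intro _ hcase
    have hboth : (Odd a ∨ 4 ∣ a) ∧ (Odd b ∨ 4 ∣ b) := by
      rcases hcase with h | h
      · exact ⟨Or.inl (Nat.odd_mul.1 h).1, Or.inl (Nat.odd_mul.1 h).2⟩
      · rcases Nat.even_or_odd a with he | ho
        · have hbo : Odd b := by
            rw [← Nat.coprime_two_left]
            exact hab.coprime_dvd_left (even_iff_two_dvd.1 he)
          exact ⟨Or.inr ((Nat.Coprime.pow_left 2 (Nat.coprime_two_left.2 hbo)).dvd_of_dvd_mul_right
            h), Or.inl hbo⟩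
        · exact ⟨Or.inl ho, Or.inr ((Nat.Coprime.pow_left 2
            (Nat.coprime_two_left.2 ho)).dvd_of_dvd_mul_left h)⟩
    have := (iha (by omega) hboth.1).lcm (ihb (by omega) hboth.2)
    rwa [hab.lcm_eq_mul, ← crystalDim_mul hab] at this

/-- **Existence.** -/
theorem hasOrder_of_le {m n : ℕ} (hm : 0 < m) (hn : 0 < n) (h : crystalDim m ≤ n) :
    HasOrder m n := by
  by_cases hcase : Odd m ∨ 4 ∣ m
  · exact (hasOrder_crystalDim m hm hcase).mono h
  obtain ⟨hodd, h4⟩ := not_or.1 hcase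
  obtain ⟨r, rfl⟩ := even_iff_two_dvd.1 (Nat.not_odd_iff_even.1 hodd)
  have hr : Odd r := by
    rw [← Nat.not_even_iff_odd]
    exact fun he => h4 (Nat.mul_dvd_mul_left 2 (even_iff_two_dvd.1 he))
  rw [crystalDim_mul (Nat.coprime_two_left.2 hr), crystalDim_two, zero_add] at h
  exact ((hasOrder_crystalDim r hr.pos (Or.inl hr)).mono h).double hr hn

/-- **Necessity.** -/
theorem crystalDim_le_of_orderOf {n m : ℕ} (hm : 0 < m) (A : Matrix (Fin n) (Fin n) ℚ)
    (hA : orderOf A = m) : crystalDim m ≤ n := by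
  classical
  have hpow : A ^ m = 1 := hA ▸ pow_orderOf_eq_one A
  have hdvd : minpoly ℚ A ∣ ∏ d ∈ m.divisors, cyclotomic d ℚ := by
    rw [prod_cyclotomic_eq_X_pow_sub_one hm]
    exact minpoly.dvd ℚ A (by simp [hpow])
  obtain ⟨S, hSdef⟩ : ∃ S, S = m.divisors.filter fun d => cyclotomic d ℚ ∣ minpoly ℚ A :=
    ⟨_, rfl⟩
  have hmem : ∀ d ∈ S, d ∈ m.divisors ∧ cyclotomic d ℚ ∣ minpoly ℚ A := fun d hd => by
    rw [hSdef] at hd
    exact Finset.mem_filter.1 hd
  have hpos : ∀ d ∈ S, 0 < d := fun d hd => Nat.pos_of_mem_divisors (hmem d hd).1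
  have hprod : minpoly ℚ A ∣ ∏ d ∈ S, cyclotomic d ℚ := by
    suffices ∀ T : Finset ℕ, T ⊆ m.divisors → minpoly ℚ A ∣ ∏ d ∈ T, cyclotomic d ℚ →
        minpoly ℚ A ∣ ∏ d ∈ T.filter (fun d => cyclotomic d ℚ ∣ minpoly ℚ A), cyclotomic d ℚ by
      rw [hSdef]
      exact this _ subset_rfl hdvd
    intro T
    induction T using Finset.strongInductionOn with
    | _ T ih =>
      intro hT h
      by_cases hall : ∀ d ∈ T, cyclotomic d ℚ ∣ minpoly ℚ A
      · rwa [Finset.filter_true_of_mem hall]
      push Not at hall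
      obtain ⟨d, hd, hnd⟩ := hall
      have hd0 : 0 < d := Nat.pos_of_mem_divisors (hT hd)
      rw [← Finset.mul_prod_erase T _ hd] at h
      have h' := (((cyclotomic.irreducible_rat hd0).coprime_iff_not_dvd).2 hnd).symm
        |>.dvd_of_dvd_mul_left h
      refine (ih _ (Finset.erase_ssubset hd) ((T.erase_subset d).trans hT) h').trans ?_
      exact Finset.prod_dvd_prod_of_subset _ _ _
        (Finset.filter_subset_filter _ (T.erase_subset d))
  have hco : (S : Set ℕ).Pairwise (Function.onFun IsCoprime fun d => cyclotomic d ℚ) :=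
    fun d _ e _ hde => cyclotomic.isCoprime_rat hde
  have hL : minpoly ℚ A ∣ X ^ S.lcm id - 1 := by
    refine hprod.trans (Finset.prod_dvd_of_coprime hco fun d hd => ?_)
    obtain ⟨t, ht⟩ := Finset.dvd_lcm (f := id) hd
    refine (cyclotomic.dvd_X_pow_sub_one d ℚ).trans ?_
    rw [ht, id_eq, pow_mul]
    exact sub_one_dvd_pow_sub_one _ t
  have hAL : A ^ S.lcm id = 1 := by
    obtain ⟨R, hR⟩ := hL
    have := congrArg (aeval A) hR
    simpa [minpoly.aeval, sub_eq_zero] using this
  have hLm : S.lcm id = m := by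
    refine Nat.dvd_antisymm (Finset.lcm_dvd fun d hd => ?_) (hA ▸ orderOf_dvd_of_pow_eq_one hAL)
    exact Nat.dvd_of_mem_divisors (hmem d hd).1
  have hdeg : ∑ d ∈ S, Nat.totient d ≤ n := by
    rcases Nat.eq_zero_or_pos n with rfl | hn
    · have hA1 : A = 1 := Subsingleton.elim _ _
      subst hA1
      rw [orderOf_one] at hA
      subst hA
      have : minpoly ℚ (1 : Matrix (Fin 0) (Fin 0) ℚ) = 1 := minpoly.subsingleton _ _
      rw [Finset.sum_eq_zero fun d hd => ?_]
      have hd' := (hmem d hd).2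
      rw [this] at hd'
      have := natDegree_eq_zero_of_isUnit (isUnit_of_dvd_one hd')
      rwa [natDegree_cyclotomic] at this
    have : Nonempty (Fin n) := ⟨⟨0, hn⟩⟩
    have h1 : ∏ d ∈ S, cyclotomic d ℚ ∣ A.charpoly :=
      (Finset.prod_dvd_of_coprime hco fun d hd => (hmem d hd).2).trans
        (Matrix.minpoly_dvd_charpoly A)
    have h2 := natDegree_le_of_dvd h1 A.charpoly_monic.ne_zero
    rw [natDegree_prod _ _ fun d _ => cyclotomic_ne_zero d ℚ, A.charpoly_natDegree_eq_dim,
      Fintype.card_fin] at h2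
    simpa [natDegree_cyclotomic] using h2
  exact hLm ▸ (crystalDim_finset_lcm_le S fun d hd => (hpos d hd).ne').trans hdeg

end FA.LinearGroups.Crystallographic

end
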