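import Mathlib.Analysis.CStarAlgebra.Matrix
import Mathlib.Analysis.CStarAlgebra.Basic
import Mathlib.Analysis.InnerProductSpace.Adjoint
import Mathlib.LinearAlgebra.Eigenspace.Semisimple
import Mathlib.LinearAlgebra.Eigenspace.Triangularizable
import Mathlib.Analysis.Complex.Polynomial.Basic
import Mathlib.GroupTheory.Index

/-!
# Jordan's theorem on finite linear groups

A finite subgroup of `GL n ℂ` is conjugate to a group of unitary matrices. There two elements `A`,
`B` within `1/4` of `1` commute: the commutator is nearer to `1` than `B`, so commutes with `A` by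
induction, and a unitary of finite order commuting with its commutator with a `B` within `√2` of
`1` commutes with `B`. So these elements generate an abelian normal subgroup, whose index is at most
the number of balls of radius `1/8` covering the unit ball.
-/

set_option autoImplicit false
set_option linter.style.haveILetI false

noncomputable section

open scoped InnerProductSpace

namespace FA.LinearGroups

section key

variable {E : Type*} [NormedAddCommGroup E] [InnerProductSpace ℂ E] [FiniteDimensional ℂ E]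

/-- A unitary map of finite order which commutes with its commutator with a map close to `1`
commutes with that map. -/
theorem commute_of_commute_commutator {A B A' B' : E →L[ℂ] E} {m : ℕ} (hm : m ≠ 0)
    (hAm : A ^ m = 1) (hA : ∀ x y, ⟪A x, A y⟫_ℂ = ⟪x, y⟫_ℂ) (hB : ∀ x, ‖B x‖ = ‖x‖)
    (hBB : B * B' = 1) (hBB' : B' * B = 1) (hA' : A' = B * A * B') (hcomm : A * A' = A' * A)
    (hclose : ‖B - 1‖ < 1) : A * B = B * A := by
  have hsem : Module.End.IsFinitelySemisimple (A : E →ₗ[ℂ] E) := by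
    refine Module.End.IsSemisimple.isFinitelySemisimple
      (Module.End.isSemisimple_of_squarefree_aeval_eq_zero
        ((Polynomial.X_pow_sub_one_separable_iff.2 (Nat.cast_ne_zero.2 hm)).squarefree) ?_)
    rw [map_sub, map_pow, Polynomial.aeval_X, map_one, sub_eq_zero,
      ← ContinuousLinearMap.toLinearMap_pow, hAm]
    rfl
  have htop : ⨆ l : ℂ, Module.End.eigenspace (A : E →ₗ[ℂ] E) l = ⊤ := by
    have h := Module.End.iSup_maxGenEigenspace_eq_top (A : E →ₗ[ℂ] E)
    simpa [hsem.maxGenEigenspace_eq_eigenspace] using h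
  have hkey : ∀ (l : ℂ) (v : E), A v = l • v → A (B v) = l • B v := by
    intro l v hv
    rcases eq_or_ne v 0 with rfl | hv0
    · simp
    have hl : star l * l = 1 := by
      have h := hA v v
      rw [hv, inner_smul_left, inner_smul_right, ← mul_assoc] at h
      exact (mul_eq_right₀ (inner_self_ne_zero.2 hv0)).1 h
    have hA'w : A' (B v) = l • B v := by
      have : B' (B v) = v := congrArg (fun f : E →L[ℂ] E => f v) hBB'
      rw [hA']
      show B (A (B' (B v))) = _
      rw [this, hv, map_smul]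
    set u := A (B v) - l • B v
    set v' := B' u
    have hu : B v' = u := congrArg (fun f : E →L[ℂ] E => f u) hBB
    have hA'u : A' u = l • u := by
      have h2 : A' (A (B v)) = A (A' (B v)) :=
        (congrArg (fun f : E →L[ℂ] E => f (B v)) hcomm).symm
      rw [map_sub, map_smul, h2, hA'w, map_smul, smul_sub]
    have hv' : A v' = l • v' := by
      have h1 : B' (A' u) = A v' := by
        rw [hA']
        exact congrArg (fun f : E →L[ℂ] E => f (A v')) hBB'
      rw [← h1, hA'u, map_smul]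
    have horth : ⟪u, v'⟫_ℂ = 0 := by
      have h1 : ⟪A (B v), v'⟫_ℂ = star l * ⟪B v, v'⟫_ℂ := by
        have h := hA (B v) v'
        rw [hv', inner_smul_right] at h
        calc ⟪A (B v), v'⟫_ℂ = star l * (l * ⟪A (B v), v'⟫_ℂ) := by
              rw [← mul_assoc, hl, one_mul]
          _ = star l * ⟪B v, v'⟫_ℂ := by rw [h]
      rw [inner_sub_left, inner_smul_left, h1]
      simp
    have h2 : ‖(B - 1) v'‖ ^ 2 = 2 * ‖v'‖ ^ 2 := by
      rw [_root_.sub_apply, one_apply_eq_self, @norm_sub_sq ℂ, hu, horth, ← hu, hB]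
      simp
      ring
    have h3 : ‖(B - 1) v'‖ ≤ ‖v'‖ :=
      ((B - 1).le_opNorm v').trans (mul_le_of_le_one_left (norm_nonneg _) hclose.le)
    have h4 : ‖v'‖ ^ 2 ≤ 0 := by
      have := pow_le_pow_left₀ (norm_nonneg _) h3 2
      linarith
    have h5 : v' = 0 := norm_eq_zero.1
      (pow_eq_zero_iff two_ne_zero |>.1 (le_antisymm h4 (sq_nonneg _)))
    exact sub_eq_zero.1 (by rw [show A (B v) - l • B v = B v' from hu.symm, h5, map_zero])
  ext x
  have hx : x ∈ ⨆ l : ℂ, Module.End.eigenspace (A : E →ₗ[ℂ] E) l := htop ▸ Submodule.mem_top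
  induction hx using Submodule.iSup_induction' with
  | mem l v hv =>
    have hv' : A v = l • v := Module.End.mem_eigenspace_iff.1 hv
    show A (B v) = B (A v)
    rw [hkey l v hv', hv', map_smul]
  | zero => simp
  | add v w _ _ h1 h2 => rw [map_add, map_add, h1, h2]

end key

section unitary

variable {E : Type*} [NormedAddCommGroup E] [InnerProductSpace ℂ E] [FiniteDimensional ℂ E]

/-- The elements within `1 / 4` of `1` of a finite unitary group commute. -/
theorem commute_of_near (G : Subgroup (unitary (E →L[ℂ] E))) [Finite G]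
    {a b : unitary (E →L[ℂ] E)} (ha : a ∈ G) (hb : b ∈ G) (ha1 : ‖(a : E →L[ℂ] E) - 1‖ < 1 / 4)
    (hb1 : ‖(b : E →L[ℂ] E) - 1‖ < 1 / 4) : a * b = b * a := by
  classical
  by_contra hne
  obtain ⟨c, hc, hmin⟩ := Set.exists_min_image {b : unitary (E →L[ℂ] E) | b ∈ G ∧
      ‖(b : E →L[ℂ] E) - 1‖ < 1 / 4 ∧ a * b ≠ b * a} (fun b => ‖(b : E →L[ℂ] E) - 1‖)
    ((Set.toFinite (G : Set (unitary (E →L[ℂ] E)))).subset fun x hx => hx.1) ⟨b, hb, hb1, hne⟩
  obtain ⟨hcG, hc1, hca⟩ := hc
  set d := a * c * a⁻¹ * c⁻¹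
  have hd : ‖(d : E →L[ℂ] E) - 1‖ ≤ 2 * ‖(a : E →L[ℂ] E) - 1‖ * ‖(c : E →L[ℂ] E) - 1‖ := by
    have he : ((d : E →L[ℂ] E) - 1) * ((c * a : unitary (E →L[ℂ] E)) : E →L[ℂ] E) =
        ((a : E →L[ℂ] E) - 1) * ((c : E →L[ℂ] E) - 1) -
          ((c : E →L[ℂ] E) - 1) * ((a : E →L[ℂ] E) - 1) := by
      rw [sub_mul, one_mul, ← MulMemClass.coe_mul,
        show d * (c * a) = a * c by simp [d, mul_assoc]]
      simp only [MulMemClass.coe_mul]
      noncomm_ring
    rw [← CStarRing.norm_mul_coe_unitary _ (c * a), he]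
    refine (norm_sub_le _ _).trans ((add_le_add (norm_mul_le _ _) (norm_mul_le _ _)).trans_eq ?_)
    ring
  have hcpos : 0 < ‖(c : E →L[ℂ] E) - 1‖ := norm_pos_iff.2 fun h => hca (by
    rw [show c = 1 from Subtype.ext (sub_eq_zero.1 h), mul_one, one_mul])
  have hd_lt : ‖(d : E →L[ℂ] E) - 1‖ < ‖(c : E →L[ℂ] E) - 1‖ :=
    hd.trans_lt (by nlinarith [norm_nonneg ((a : E →L[ℂ] E) - 1)])
  have hdG : d ∈ G := G.mul_mem (G.mul_mem (G.mul_mem ha hcG) (G.inv_mem ha)) (G.inv_mem hcG)
  have hda : a * d = d * a := by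
    by_contra h
    exact absurd (hmin d ⟨hdG, hd_lt.trans hc1, h⟩) (not_le.2 hd_lt)
  apply hca
  have hinner : ∀ (u : unitary (E →L[ℂ] E)) (x y : E),
      ⟪(u : E →L[ℂ] E) x, (u : E →L[ℂ] E) y⟫_ℂ = ⟪x, y⟫_ℂ := fun u x y => by
    rw [← ContinuousLinearMap.adjoint_inner_left, ← ContinuousLinearMap.star_eq_adjoint]
    exact congrArg (⟪·, y⟫_ℂ)
      (congrArg (fun f : E →L[ℂ] E => f x) (Unitary.coe_star_mul_self u))
  have hconj : a * (c * a * c⁻¹) = c * a * c⁻¹ * a := by
    have h1 : Commute a d := hda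
    have h2 : Commute a (a⁻¹ * d)⁻¹ := ((Commute.refl a).inv_right.mul_right h1).inv_right
    rwa [show (a⁻¹ * d)⁻¹ = c * a * c⁻¹ by simp [d, mul_assoc, _root_.mul_inv_rev]] at h2
  have hfin : IsOfFinOrder a :=
    Submonoid.isOfFinOrder_coe.2 (isOfFinOrder_of_finite (⟨a, ha⟩ : G))
  refine Subtype.ext (commute_of_commute_commutator (A := (a : E →L[ℂ] E))
    (B := (c : E →L[ℂ] E)) (B' := ((c⁻¹ : unitary (E →L[ℂ] E)) : E →L[ℂ] E))
    (A' := ((c * a * c⁻¹ : unitary (E →L[ℂ] E)) : E →L[ℂ] E)) hfin.orderOf_pos.ne' ?_ (hinner a)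
    (fun x => ?_) ?_ ?_ rfl (congrArg Subtype.val hconj) (hc1.trans (by norm_num)))
  · exact congrArg Subtype.val (pow_orderOf_eq_one a)
  · rw [@norm_eq_sqrt_re_inner ℂ, @norm_eq_sqrt_re_inner ℂ E _ _ _ x, hinner c x x]
  · exact congrArg Subtype.val (mul_inv_cancel c)
  · exact congrArg Subtype.val (inv_mul_cancel c)

/-- **Jordan's theorem for unitary groups.** -/
theorem exists_bound_unitary (E : Type*) [NormedAddCommGroup E] [InnerProductSpace ℂ E]
    [FiniteDimensional ℂ E] [Nontrivial E] :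
    ∃ J : ℕ, ∀ G : Subgroup (unitary (E →L[ℂ] E)), Finite G →
      ∃ A : Subgroup G, A.Normal ∧ (∀ x ∈ A, ∀ y ∈ A, x * y = y * x) ∧ A.index ≤ J ∧
        A.index ≠ 0 := by
  classical
  obtain ⟨t, -, htfin, ht⟩ := Metric.finite_approx_of_totallyBounded
    (isCompact_closedBall (0 : E →L[ℂ] E) 1).totallyBounded (1 / 8) (by norm_num)
  refine ⟨htfin.toFinset.card, fun G hG => ?_⟩
  set S : Set G := {g | ‖((g : unitary (E →L[ℂ] E)) : E →L[ℂ] E) - 1‖ < 1 / 4}
  have hconj : ∀ g : G, ∀ s ∈ S, g * s * g⁻¹ ∈ S := fun g s hs => by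
    show ‖_ - (1 : E →L[ℂ] E)‖ < _
    set u : unitary (E →L[ℂ] E) := (g : unitary (E →L[ℂ] E))
    set w : unitary (E →L[ℂ] E) := (s : unitary (E →L[ℂ] E))
    have h1 : (u : E →L[ℂ] E) * ((u⁻¹ : unitary (E →L[ℂ] E)) : E →L[ℂ] E) = 1 :=
      congrArg Subtype.val (mul_inv_cancel u)
    have h2 : ((u * w * u⁻¹ : unitary (E →L[ℂ] E)) : E →L[ℂ] E) - 1 =
        (u : E →L[ℂ] E) * ((w : E →L[ℂ] E) - 1) *
          ((u⁻¹ : unitary (E →L[ℂ] E)) : E →L[ℂ] E) := by
      rw [mul_sub, sub_mul, mul_one, h1]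
      rfl
    show ‖((u * w * u⁻¹ : unitary (E →L[ℂ] E)) : E →L[ℂ] E) - 1‖ < _
    rw [h2, CStarRing.norm_mul_coe_unitary, CStarRing.norm_coe_unitary_mul]
    exact hs
  haveI hA : (Subgroup.closure S).Normal := by
    refine ⟨fun x hx g => ?_⟩
    induction hx using Subgroup.closure_induction with
    | mem s hs => exact Subgroup.subset_closure (hconj g s hs)
    | one => simp
    | mul x y _ _ hx hy =>
      rw [show g * (x * y) * g⁻¹ = g * x * g⁻¹ * (g * y * g⁻¹) by simp [mul_assoc]]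
      exact mul_mem hx hy
    | inv x _ hx =>
      rw [show g * x⁻¹ * g⁻¹ = (g * x * g⁻¹)⁻¹ by simp [mul_assoc, _root_.mul_inv_rev]]
      exact inv_mem hx
  have hcomm : ∀ x ∈ Subgroup.closure S, ∀ y ∈ Subgroup.closure S, x * y = y * x := by
    have h1 : ∀ s ∈ S, ∀ y ∈ Subgroup.closure S, Commute s y := fun s hs y hy => by
      induction hy using Subgroup.closure_induction with
      | mem y hy => exact Subtype.ext (commute_of_near G s.2 y.2 hs hy)
      | one => exact Commute.one_right s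
      | mul a b _ _ ha hb => exact ha.mul_right hb
      | inv a _ ha => exact ha.inv_right
    intro x hx y hy
    change Commute x y
    induction hx using Subgroup.closure_induction with
    | mem x hx => exact h1 x hx y hy
    | one => exact Commute.one_left y
    | mul a b _ _ ha hb => exact ha.mul_left hb
    | inv a _ ha => exact ha.inv_left
  refine ⟨Subgroup.closure S, hA, hcomm, ?_, Subgroup.FiniteIndex.index_ne_zero⟩
  have hball : ∀ g : G, ∃ x ∈ t,
      ((g : unitary (E →L[ℂ] E)) : E →L[ℂ] E) ∈ Metric.ball x (1 / 8) :=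
    fun g => by
      have : ((g : unitary (E →L[ℂ] E)) : E →L[ℂ] E) ∈ Metric.closedBall (0 : E →L[ℂ] E) 1 := by
        rw [mem_closedBall_zero_iff, CStarRing.norm_coe_unitary]
      obtain ⟨x, hx⟩ := Set.mem_iUnion₂.1 (ht this)
      exact ⟨x, hx.1, hx.2⟩
  choose f hft hf using hball
  rw [Subgroup.index]
  refine (Nat.card_le_card_of_injective (fun q : G ⧸ Subgroup.closure S =>
    (⟨f q.out, htfin.mem_toFinset.2 (hft _)⟩ : htfin.toFinset)) fun q q' h => ?_).trans_eq ?_
  · have h' : f q.out = f q'.out := congrArg Subtype.val h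
    rw [← q.out_eq', ← q'.out_eq', QuotientGroup.eq]
    refine Subgroup.subset_closure (show ‖_ - (1 : E →L[ℂ] E)‖ < 1 / 4 from ?_)
    set u : unitary (E →L[ℂ] E) := (q.out : unitary (E →L[ℂ] E))
    set v : unitary (E →L[ℂ] E) := (q'.out : unitary (E →L[ℂ] E))
    rw [show (((q.out⁻¹ * q'.out : G) : unitary (E →L[ℂ] E)) : E →L[ℂ] E) - 1 =
        ((u⁻¹ : unitary (E →L[ℂ] E)) : E →L[ℂ] E) * ((v : E →L[ℂ] E) - (u : E →L[ℂ] E)) by
      rw [mul_sub, ← MulMemClass.coe_mul, ← MulMemClass.coe_mul, inv_mul_cancel]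
      rfl, CStarRing.norm_coe_unitary_mul]
    have h1 := Metric.mem_ball.1 (hf q.out)
    have h2 := Metric.mem_ball.1 (hf q'.out)
    rw [← h'] at h2
    rw [dist_eq_norm] at h1 h2
    calc ‖(v : E →L[ℂ] E) - (u : E →L[ℂ] E)‖
        = ‖((v : E →L[ℂ] E) - f q.out) - ((u : E →L[ℂ] E) - f q.out)‖ := by
          rw [sub_sub_sub_cancel_right]
      _ ≤ ‖(v : E →L[ℂ] E) - f q.out‖ + ‖(u : E →L[ℂ] E) - f q.out‖ := norm_sub_le _ _
      _ < 1 / 4 := by linarith
  · rw [Nat.card_eq_fintype_card, Fintype.card_coe]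

end unitary

end FA.LinearGroups
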