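import Fermat.Agent.LinearGroups.Jordan
import Mathlib.Analysis.Matrix.Order
import Mathlib.LinearAlgebra.Matrix.GeneralLinearGroup.Defs
import Mathlib.RingTheory.AlgebraicIndependent.TranscendenceBasis
import Mathlib.FieldTheory.IsAlgClosed.Classification
import Mathlib.Algebra.MvPolynomial.Cardinal
import Mathlib.Analysis.Complex.Cardinality

/-!
# Jordan's theorem over fields of characteristic zero

A finite subgroup of `GL n ℂ` fixes a positive definite form, the sum of the `gᴴ g`, so is conjugate
to a unitary group. A finitely generated subring of a field of characteristic zero embeds into `ℂ`,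
a transcendence basis going to independent complex numbers.
-/

set_option autoImplicit false
set_option linter.style.haveILetI false

noncomputable section

open Matrix
open scoped ComplexOrder MatrixOrder

namespace FA.LinearGroups

/-- A countable domain of characteristic zero embeds into `ℂ`. -/
theorem exists_injective_hom_complex (R : Type*) [CommRing R] [IsDomain R] [CharZero R]
    [Countable R] : ∃ φ : R →+* ℂ, Function.Injective φ := by
  haveI : FaithfulSMul ℤ R :=
    (faithfulSMul_iff_algebraMap_injective ℤ R).2 (algebraMap ℤ R).injective_int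
  obtain ⟨s, hs⟩ := exists_isTranscendenceBasis ℤ R
  haveI : Countable s := hs.1.injective.countable
  obtain ⟨t, ht⟩ := exists_isTranscendenceBasis ℤ ℂ
  haveI : Infinite t := by
    rw [Cardinal.infinite_iff, ← IsAlgClosed.cardinal_eq_cardinal_transcendence_basis_of_aleph0_lt'
      _ ht Cardinal.mk_int.le (by rw [Cardinal.mk_complex]; exact Cardinal.aleph0_lt_continuum),
      Cardinal.mk_complex]
    exact Cardinal.aleph0_le_continuum
  letI := Encodable.ofCountable s
  set w : s → ℂ := fun i => ((Infinite.natEmbedding t (Encodable.encode i) : t) : ℂ)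
  have hw : AlgebraicIndependent ℤ w := ht.1.comp _
    ((Infinite.natEmbedding t).injective.comp Encodable.encode_injective)
  set A := Algebra.adjoin ℤ (Set.range ((↑) : s → R))
  letI : Algebra A ℂ :=
    ((MvPolynomial.aeval w).comp
      (hs.1.aevalEquiv.symm : A →ₐ[ℤ] MvPolynomial s ℤ)).toRingHom.toAlgebra
  haveI : FaithfulSMul A ℂ := (faithfulSMul_iff_algebraMap_injective A ℂ).2
    (Function.Injective.comp (g := MvPolynomial.aeval (R := ℤ) w) hw hs.1.aevalEquiv.symm.injective)
  haveI : Algebra.IsAlgebraic A R := hs.isAlgebraic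
  set φ : R →ₐ[A] ℂ := IsAlgClosed.lift
  refine ⟨φ.toRingHom, (injective_iff_map_eq_zero φ.toRingHom).2 fun x hx =>
    by_contra fun hx0 => ?_⟩
  obtain ⟨a, ha, c, hc⟩ := (Algebra.IsAlgebraic.isAlgebraic (R := A) x).exists_nonzero_dvd
    (mem_nonZeroDivisors_of_ne_zero hx0)
  refine ha ((faithfulSMul_iff_algebraMap_injective A ℂ).1 inferInstance ?_)
  rw [map_zero, ← φ.commutes, hc, map_mul, show φ x = 0 from hx, zero_mul]

variable (n : Type*) [Fintype n] [DecidableEq n]

/-- A finite subgroup of `GL n ℂ` has an injective map into the unitary group. -/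
theorem exists_unitarisation {G : Type*} [Group G] [Finite G] (f : G →* Matrix n n ℂ)
    (hf : Function.Injective f) :
    ∃ u : G →* unitary (EuclideanSpace ℂ n →L[ℂ] EuclideanSpace ℂ n), Function.Injective u := by
  classical
  haveI := Fintype.ofFinite G
  set H : Matrix n n ℂ := ∑ g, (f g)ᴴ * f g
  have hH : H.PosDef := by
    rw [show H = (f 1)ᴴ * f 1 + ∑ g ∈ Finset.univ.erase 1, (f g)ᴴ * f g from
      (Finset.add_sum_erase _ _ (Finset.mem_univ 1)).symm, map_one, conjTranspose_one, one_mul]
    exact PosDef.one.add_posSemidef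
      (posSemidef_sum _ fun g _ => posSemidef_conjTranspose_mul_self _)
  have hinv : ∀ h, (f h)ᴴ * H * f h = H := fun h => by
    simp only [H, Finset.mul_sum, Finset.sum_mul]
    exact Fintype.sum_equiv (Equiv.mulRight h) _ _ fun g => by
      simp [map_mul, Matrix.mul_assoc]
  obtain ⟨y, hy, hHy⟩ := CStarAlgebra.isStrictlyPositive_iff_eq_star_mul_self.mp
    hH.isStrictlyPositive
  obtain ⟨y, rfl⟩ := hy
  set T : G →* Matrix n n ℂ :=
    { toFun := fun g => (y : Matrix n n ℂ) * f g * (y⁻¹ : (Matrix n n ℂ)ˣ)
      map_one' := by simp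
      map_mul' := fun a b => by simp [map_mul, Matrix.mul_assoc] }
  have hT : ∀ g, star (T g) * T g = 1 := fun g => by
    show star ((y : Matrix n n ℂ) * f g * (y⁻¹ : (Matrix n n ℂ)ˣ)) *
      ((y : Matrix n n ℂ) * f g * (y⁻¹ : (Matrix n n ℂ)ˣ)) = 1
    have h := hinv g
    rw [hHy, ← star_eq_conjTranspose] at h
    rw [star_mul, star_mul]
    calc star ((y⁻¹ : (Matrix n n ℂ)ˣ) : Matrix n n ℂ) * (star (f g) * star (y : Matrix n n ℂ)) *
          ((y : Matrix n n ℂ) * f g * (y⁻¹ : (Matrix n n ℂ)ˣ))
        = star ((y⁻¹ : (Matrix n n ℂ)ˣ) : Matrix n n ℂ) *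
          (star (f g) * (star (y : Matrix n n ℂ) * y) * f g) * (y⁻¹ : (Matrix n n ℂ)ˣ) := by
          simp only [Matrix.mul_assoc]
      _ = star ((y : Matrix n n ℂ) * (y⁻¹ : (Matrix n n ℂ)ˣ)) *
          ((y : Matrix n n ℂ) * (y⁻¹ : (Matrix n n ℂ)ˣ)) := by
          rw [h, star_mul]; simp only [Matrix.mul_assoc]
      _ = 1 := by rw [Units.mul_inv, star_one, one_mul]
  set Φ := Matrix.toEuclideanCLM (n := n) (𝕜 := ℂ)
  refine ⟨(Φ.toAlgEquiv.toRingEquiv.toMonoidHom.comp T).codRestrict _ fun g =>
    Unitary.mem_iff.2 ⟨?_, ?_⟩, fun a b h => hf ?_⟩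
  · show star (Φ (T g)) * Φ (T g) = 1
    rw [← map_star, ← map_mul, hT, map_one]
  · show Φ (T g) * star (Φ (T g)) = 1
    rw [← map_star, ← map_mul, mul_eq_one_comm.1 (hT g), map_one]
  · have h' : T a = T b := Φ.injective (congrArg Subtype.val h :)
    exact (Units.mul_right_inj y).1 ((Units.mul_left_inj y⁻¹).1 h')

/-- **Jordan's theorem over `ℂ`**, for finite groups with an injective map to matrices. -/
theorem exists_bound_complex : ∃ J : ℕ, ∀ (G : Type*) [Group G] [Finite G]
    (f : G →* Matrix n n ℂ), Function.Injective f →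
      ∃ A : Subgroup G, A.Normal ∧ (∀ x ∈ A, ∀ y ∈ A, x * y = y * x) ∧ A.index ≤ J ∧
        A.index ≠ 0 := by
  cases isEmpty_or_nonempty n
  · refine ⟨1, fun G _ _ f hf => ⟨⊤, inferInstance, fun x _ y _ => hf (Subsingleton.elim _ _),
      by simp, by simp⟩⟩
  obtain ⟨J, hJ⟩ := exists_bound_unitary (EuclideanSpace ℂ n)
  refine ⟨J, fun G _ _ f hf => ?_⟩
  obtain ⟨u, hu⟩ := exists_unitarisation n f hf
  haveI : Finite u.range := Finite.of_surjective _ u.rangeRestrict_surjective
  obtain ⟨A, hA, hcomm, hle, hne⟩ := hJ u.range inferInstance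
  refine ⟨A.comap u.rangeRestrict, hA.comap _, fun x hx y hy =>
    (MonoidHom.rangeRestrict_injective_iff.2 hu) (by
      rw [map_mul, map_mul]; exact hcomm _ hx _ hy), ?_, ?_⟩
  · rwa [A.index_comap_of_surjective u.rangeRestrict_surjective]
  · rwa [A.index_comap_of_surjective u.rangeRestrict_surjective]

/-- **Jordan's theorem** over every field of characteristic zero. -/
theorem exists_bound_field : ∃ J : ℕ, ∀ (K : Type*) [Field K] [CharZero K]
    (G : Subgroup (GL n K)), Finite G →
      ∃ A : Subgroup G, A.Normal ∧ (∀ x ∈ A, ∀ y ∈ A, x * y = y * x) ∧ A.index ≤ J ∧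
        A.index ≠ 0 := by
  obtain ⟨J, hJ⟩ := exists_bound_complex n
  refine ⟨J, fun K _ _ G hG => ?_⟩
  classical
  set S : Set K := Set.range fun z : G × n × n => ((z.1 : GL n K) : Matrix n n K) z.2.1 z.2.2
  set R := Algebra.adjoin ℤ S with hR
  haveI : Countable R := by
    haveI : Countable (MvPolynomial S ℤ) := Cardinal.mk_le_aleph0_iff.1
      (MvPolynomial.cardinalMk_le_max_lift.trans (max_le (max_le (by simp) (by simp)) le_rfl))
    have : R = (MvPolynomial.aeval (R := ℤ) ((↑) : S → K)).range := by
      rw [hR, ← Algebra.adjoin_range_eq_range_aeval, Subtype.range_coe]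
    rw [this]
    exact (AlgHom.rangeRestrict_surjective _).countable
  obtain ⟨φ, hφ⟩ := exists_injective_hom_complex R
  set M : G → Matrix n n R := fun g => Matrix.of fun i j =>
    (⟨((g : GL n K) : Matrix n n K) i j, Algebra.subset_adjoin ⟨(g, i, j), rfl⟩⟩ : R)
  have hM : ∀ g, (M g).map R.val = ((g : GL n K) : Matrix n n K) := fun g => rfl
  have hinj : Function.Injective fun A : Matrix n n R => A.map R.val :=
    Matrix.map_injective Subtype.val_injective
  set F : G →* Matrix n n ℂ :=
    { toFun := fun g => (M g).map φ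
      map_one' := by
        rw [show M 1 = 1 from hinj (by
          show (M 1).map R.val = (1 : Matrix n n R).map R.val
          rw [hM, Matrix.map_one _ (map_zero R.val) (map_one R.val)]; rfl),
          Matrix.map_one _ (map_zero φ) (map_one φ)]
      map_mul' := fun g h => by
        rw [show M (g * h) = M g * M h from hinj (by
          show (M (g * h)).map R.val = (M g * M h).map R.val
          rw [hM, Matrix.map_mul, hM, hM]; rfl), Matrix.map_mul] }
  refine hJ G F fun a b h => Subtype.ext (Units.ext ?_)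
  rw [← hM a, ← hM b, Matrix.map_injective hφ h]

end FA.LinearGroups
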