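import Fermat.Agent.LinearGroups.Burnside
import Mathlib.LinearAlgebra.Trace
import Mathlib.LinearAlgebra.Projection
import Mathlib.LinearAlgebra.Matrix.Charpoly.Coeff
import Mathlib.GroupTheory.Sylow
import Mathlib.Data.Nat.Choose.Factorization
import Mathlib.Analysis.Complex.Polynomial.Basic

/-!
# Minkowski's bound for the finite subgroups of `GL n ℚ`

The trace of the average of the `k`th tensor powers over a finite group is a rank, so `|G|` divides
`∑ P (tr g)` for every `P ∈ ℤ[X]`. For a `p`-group over `ℚ` every `g ≠ 1` has trace `n - p j` with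
`1 ≤ j ≤ m = n / (p - 1)`, since the factors of its characteristic polynomial are cyclotomic; so
`P = ∏ (X - n + p j)` gives Schur's congruence `|G| ∣ p ^ m m!`.
-/

set_option autoImplicit false
set_option linter.style.haveILetI false

noncomputable section

open Polynomial Matrix

namespace FA.LinearGroups

/-- The exponent of `p` in Minkowski's bound for `GL n ℚ`. -/
def minkowskiExponent (n p : ℕ) : ℕ := ∑ i ∈ Finset.range (n + 1), n / (p ^ i * (p - 1))

section Congruence

set_option linter.unusedSectionVars false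

variable {n : Type*} [Fintype n] [DecidableEq n]

/-- The `k`th tensor power of a matrix. -/
def tensorPow (k : ℕ) (A : Matrix n n ℚ) : Matrix (Fin k → n) (Fin k → n) ℚ :=
  Matrix.of fun a b => ∏ i, A (a i) (b i)

/-- Tensor powers are multiplicative. -/
theorem tensorPow_mul (k : ℕ) (A B : Matrix n n ℚ) :
    tensorPow k (A * B) = tensorPow k A * tensorPow k B := by
  ext a b
  simp [tensorPow, Matrix.mul_apply, Fintype.prod_sum, Finset.prod_mul_distrib]

/-- The trace of a tensor power. -/
theorem trace_tensorPow (k : ℕ) (A : Matrix n n ℚ) : (tensorPow k A).trace = A.trace ^ k := by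
  simp only [Matrix.trace, Matrix.diag, tensorPow, Matrix.of_apply]
  rw [← Fintype.prod_sum (fun (_ : Fin k) j => A j j), Finset.prod_const, Finset.card_univ,
    Fintype.card_fin]

/-- **Blichfeldt's congruence**: `|G|` divides `∑ P (tr g)`. -/
theorem exists_sum_eval_trace {G : Type*} [Group G] [Fintype G] (f : G →* Matrix n n ℚ)
    (P : ℤ[X]) : ∃ z : ℤ, ∑ g, aeval (f g).trace P = (Fintype.card G : ℚ) * z := by
  induction P using Polynomial.induction_on' with
  | add p q hp hq =>
    obtain ⟨a, ha⟩ := hp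
    obtain ⟨b, hb⟩ := hq
    exact ⟨a + b, by simp only [map_add, Finset.sum_add_distrib, ha, hb]; push_cast; ring⟩
  | monomial k c =>
    set N : ℚ := (Fintype.card G : ℚ)
    have hN : N ≠ 0 := Nat.cast_ne_zero.2 Fintype.card_ne_zero
    set S := ∑ g, tensorPow k (f g)
    have hS : S * S = N • S := by
      have h1 : ∀ g, tensorPow k (f g) * S = S := fun g => by
        simp only [S, Finset.mul_sum, ← tensorPow_mul, ← map_mul]
        exact Fintype.sum_equiv (Equiv.mulLeft g) _ _ fun _ => rfl
      rw [Finset.sum_mul, Finset.sum_congr rfl fun g _ => h1 g, Finset.sum_const, Finset.card_univ,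
        ← Nat.cast_smul_eq_nsmul ℚ]
    have hE : IsIdempotentElem (Matrix.toLin' (N⁻¹ • S)) := by
      show Matrix.toLin' (N⁻¹ • S) * Matrix.toLin' (N⁻¹ • S) = _
      rw [Module.End.mul_eq_comp, ← Matrix.toLin'_mul, smul_mul_smul_comm, hS, smul_smul, mul_assoc,
        inv_mul_cancel₀ hN, mul_one]
    have htr := (LinearMap.IsIdempotentElem.isProj_range _ hE).trace
    rw [Matrix.trace_toLin'_eq, Matrix.trace_smul, Matrix.trace_sum, smul_eq_mul,
      inv_mul_eq_iff_eq_mul₀ hN] at htr
    simp only [trace_tensorPow] at htr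
    refine ⟨c * Module.finrank ℚ (LinearMap.range (Matrix.toLin' (N⁻¹ • S))), ?_⟩
    simp only [aeval_monomial, ← Finset.mul_sum, htr, eq_intCast]
    push_cast
    ring

end Congruence

/-- The next coefficient of a cyclotomic polynomial of prime power order. -/
theorem natDegree_add_nextCoeff_cyclotomic {p : ℕ} (hp : p.Prime) (i : ℕ) :
    ∃ j : ℕ, ((cyclotomic (p ^ i) ℚ).natDegree : ℚ) + (cyclotomic (p ^ i) ℚ).nextCoeff = p * j ∧
      (p - 1) * j ≤ (cyclotomic (p ^ i) ℚ).natDegree := by
  haveI := Fact.mk hp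
  rcases i with _ | i
  · exact ⟨0, by rw [pow_zero, cyclotomic_one, ← C_1, natDegree_X_sub_C, nextCoeff_X_sub_C]; simp,
      by simp⟩
  have hdeg : (cyclotomic (p ^ (i + 1)) ℚ).natDegree = p ^ i * (p - 1) := by
    rw [natDegree_cyclotomic, Nat.totient_prime_pow_succ hp]
  have hpos : 0 < p ^ i * (p - 1) :=
    Nat.mul_pos (pow_pos hp.pos i) (Nat.sub_pos_of_lt hp.one_lt)
  rw [nextCoeff_of_natDegree_pos (hdeg ▸ hpos), hdeg, cyclotomic_prime_pow_eq_geom_sum hp,
    finsetSum_coeff]
  simp only [← pow_mul, coeff_X_pow]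
  rcases i with _ | i
  · refine ⟨1, ?_, by simp⟩
    have h2 := hp.two_le
    rw [Finset.sum_eq_single (p - 2) (fun b _ hb => if_neg (by simp; omega))
      (fun h => absurd (Finset.mem_range.2 (by omega)) h), if_pos (by simp; omega)]
    simp [Nat.cast_sub hp.one_le]
  · refine ⟨p ^ i * (p - 1), ?_, ?_⟩
    · rw [Finset.sum_eq_zero fun b _ => if_neg fun h => ?_]
      · simp only [add_zero]
        rw [← Nat.cast_mul, ← mul_assoc, pow_succ']
      have hdvd : p ∣ p ^ (i + 1) * (p - 1) - 1 := h ▸ ((dvd_pow_self p i.succ_ne_zero).mul_right b)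
      have hdvd' : p ∣ p ^ (i + 1) * (p - 1) := (dvd_pow_self p i.succ_ne_zero).mul_right _
      have := Nat.dvd_sub hdvd' hdvd
      rw [Nat.sub_sub_self hpos] at this
      exact hp.not_dvd_one this
    · rw [pow_succ', mul_assoc]
      exact Nat.mul_le_mul_right _ (Nat.sub_le p 1)

/-- A monic rational polynomial whose roots have `p`-power order: `deg + next coefficient` is
`p j` with `(p - 1) j ≤ deg`. -/
theorem natDegree_add_nextCoeff {p k : ℕ} (hp : p.Prime) :
    ∀ (d : ℕ) (f : ℚ[X]), f.natDegree = d → f.Monic →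
      (∀ x : ℂ, aeval x f = 0 → x ^ p ^ k = 1) →
      ∃ j : ℕ, (f.natDegree : ℚ) + f.nextCoeff = p * j ∧ (p - 1) * j ≤ f.natDegree := by
  intro d
  induction d using Nat.strong_induction_on with
  | _ d ih =>
    intro f hd hf hroot
    rcases Nat.eq_zero_or_pos d with rfl | hpos
    · exact ⟨0, by rw [nextCoeff, if_pos hd, hd]; simp, by simp⟩
    obtain ⟨x, hx⟩ := IsAlgClosed.exists_aeval_eq_zero ℂ f (fun h => by
      rw [degree_eq_natDegree hf.ne_zero, hd, Nat.cast_eq_zero] at h
      omega)
    obtain ⟨i, -, hi⟩ := (Nat.dvd_prime_pow hp).1 (orderOf_dvd_of_pow_eq_one (hroot x hx))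
    have hprim : IsPrimitiveRoot x (p ^ i) := hi ▸ IsPrimitiveRoot.orderOf x
    obtain ⟨h, rfl⟩ : cyclotomic (p ^ i) ℚ ∣ f := by
      rw [cyclotomic_eq_minpoly_rat hprim (pow_pos hp.pos i)]
      exact minpoly.dvd ℚ x hx
    have hc := cyclotomic.monic (p ^ i) ℚ
    have hh : h.Monic := hc.of_mul_monic_left hf
    have hdeg := hc.natDegree_mul hh
    have hcpos : 0 < (cyclotomic (p ^ i) ℚ).natDegree := by
      rw [natDegree_cyclotomic]
      exact Nat.totient_pos.2 (pow_pos hp.pos i)
    obtain ⟨j, hj, hj'⟩ := ih h.natDegree (by omega) h rfl hh fun y hy =>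
      hroot y (by rw [map_mul, hy, mul_zero])
    obtain ⟨j', hj1, hj2⟩ := natDegree_add_nextCoeff_cyclotomic hp i
    refine ⟨j' + j, ?_, by rw [hdeg, mul_add]; omega⟩
    rw [hc.nextCoeff_mul hh, hdeg]
    push_cast
    linear_combination hj + hj1

variable {n : Type*} [Fintype n] [DecidableEq n]

/-- **Traces of rational matrices of `p`-power order.** -/
theorem exists_trace_eq {p k : ℕ} (hp : p.Prime) {A : Matrix n n ℚ} (hA : A ^ p ^ k = 1)
    (hne : A ≠ 1) : ∃ j : ℕ, A.trace = (Fintype.card n : ℚ) - p * j ∧ 1 ≤ j ∧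
      j ≤ Fintype.card n / (p - 1) := by
  obtain ⟨j, hj, hj'⟩ := natDegree_add_nextCoeff (k := k) hp _ A.charpoly rfl A.charpoly_monic
    fun x hx => by
      refine pow_eq_one_of_mem_roots (A := A.map (algebraMap ℚ ℂ))
        (by rw [← RingHom.mapMatrix_apply, ← map_pow, hA, map_one]) ?_
      rw [Matrix.charpoly_map, mem_roots (Monic.ne_zero (A.charpoly_monic.map _)), IsRoot,
        eval_map_algebraMap]
      exact hx
  rw [charpoly_natDegree_eq_dim] at hj hj'
  have htr : A.trace = (Fintype.card n : ℚ) - p * j := by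
    rw [trace_eq_neg_charpoly_nextCoeff]
    linarith
  refine ⟨j, htr, Nat.one_le_iff_ne_zero.2 fun h0 => hne ?_,
    (Nat.le_div_iff_mul_le (Nat.sub_pos_of_lt hp.one_lt)).2 (by rwa [mul_comm])⟩
  exact eq_one_of_trace' (pow_ne_zero k hp.ne_zero) hA (by rw [htr, h0]; simp)

/-- **Schur's congruence** for a rational `p`-group. -/
theorem card_dvd_of_pGroup {p : ℕ} (hp : p.Prime) {G : Type*} [Group G] [Finite G]
    (hG : IsPGroup p G) (f : G →* Matrix n n ℚ) (hf : Function.Injective f) :
    Nat.card G ∣ p ^ (Fintype.card n / (p - 1)) * (Fintype.card n / (p - 1)).factorial := by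
  classical
  haveI := Fintype.ofFinite G
  haveI := Fact.mk hp
  obtain ⟨k, hk⟩ := IsPGroup.iff_card.1 hG
  set m := Fintype.card n / (p - 1)
  set P : ℤ[X] := ∏ j ∈ Finset.Icc 1 m, (X - C ((Fintype.card n : ℤ) - p * (j : ℤ)))
  obtain ⟨z, hz⟩ := exists_sum_eval_trace f P
  have hzero : ∀ g : G, g ≠ 1 → aeval (f g).trace P = 0 := fun g hg => by
    obtain ⟨j, hj, h1, hm⟩ := exists_trace_eq hp (A := f g) (k := k)
      (by rw [← map_pow, ← hk, pow_card_eq_one', map_one])
      (fun h => hg (hf (h.trans (map_one f).symm)))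
    rw [map_prod]
    exact Finset.prod_eq_zero (i := j) (Finset.mem_Icc.2 ⟨h1, hm⟩) (by simp [hj])
  rw [Finset.sum_eq_single 1 (fun g _ hg => hzero g hg) (fun h => absurd (Finset.mem_univ _) h),
    map_one, Matrix.trace_one, map_prod] at hz
  simp only [map_sub, map_mul, map_natCast, aeval_X, sub_sub_cancel, Finset.prod_mul_distrib,
    Finset.prod_const, Nat.card_Icc,
    Nat.add_sub_cancel] at hz
  rw [← Nat.cast_prod, ← Finset.Ico_add_one_right_eq_Icc, Finset.prod_Ico_id_eq_factorial] at hz
  have hz' : ((p ^ m * m.factorial : ℕ) : ℤ) = (Nat.card G : ℤ) * z := by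
    rw [Nat.card_eq_fintype_card]
    exact_mod_cast hz
  exact Int.natCast_dvd_natCast.1 ⟨z, hz'⟩

/-- The exponent of `p` in `p ^ m m!`, `m = n / (p - 1)`. -/
theorem factorization_pow_mul_factorial {p : ℕ} (hp : p.Prime) (n : ℕ) :
    (p ^ (n / (p - 1)) * (n / (p - 1)).factorial).factorization p = minkowskiExponent n p := by
  set m := n / (p - 1) with hm
  have hlog : Nat.log p m < n + 1 :=
    ((Nat.log_le_self p m).trans (Nat.div_le_self n _)).trans_lt (Nat.lt_succ_self n)
  rw [Nat.factorization_mul (pow_ne_zero _ hp.ne_zero) m.factorial_ne_zero, Finsupp.add_apply,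
    hp.factorization_pow, Finsupp.single_eq_same, Nat.factorization_factorial hp hlog,
    minkowskiExponent, Finset.range_eq_Ico, Finset.sum_eq_sum_Ico_succ_bot n.succ_pos]
  simp only [pow_zero, one_mul, zero_add]
  congr 1
  refine Finset.sum_congr rfl fun i _ => ?_
  rw [hm, Nat.div_div_eq_div_mul, mul_comm]

/-- **Minkowski's bound.** -/
theorem factorization_card_le {n : ℕ} {p : ℕ} (hp : p.Prime) (G : Subgroup (GL (Fin n) ℚ))
    [Finite G] : (Nat.card G).factorization p ≤ minkowskiExponent n p := by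
  haveI := Fact.mk hp
  obtain ⟨P⟩ : Nonempty (Sylow p G) := inferInstance
  have h := card_dvd_of_pGroup hp P.2
    ((Units.coeHom _).comp (G.subtype.comp (P : Subgroup G).subtype))
    (Units.val_injective.comp (Subtype.val_injective.comp Subtype.val_injective))
  rw [Fintype.card_fin, P.card_eq_multiplicity,
    hp.pow_dvd_iff_le_factorization (mul_ne_zero (pow_ne_zero _ hp.ne_zero)
      (Nat.factorial_ne_zero _)), factorization_pow_mul_factorial hp] at h
  exact h

end FA.LinearGroups

end
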