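import Fermat.Agent.LinearGroups.MinkowskiBound
import Mathlib.NumberTheory.Cyclotomic.PrimitiveRoots
import Mathlib.RingTheory.Polynomial.Cyclotomic.Roots
import Mathlib.LinearAlgebra.GeneralLinearGroup.Basic
import Mathlib.Data.Finite.Perm
import Mathlib.LinearAlgebra.FreeModule.Finite.Basic

/-!
# Minkowski's bound is attained

The monomial maps of `ℚ(ζ_p)ᵐ` with entries in the `p`th roots of unity form a group of order
`p ^ m m!`; for `m = n / (p - 1)` it acts faithfully on `ℚⁿ = ℚ(ζ_p)ᵐ × ℚʳ`.
-/

set_option autoImplicit false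
set_option linter.style.haveILetI false

noncomputable section

namespace FA.LinearGroups

section Monomial

variable {L : Type*} [Field L] [Algebra ℚ L] {m : ℕ} {p : ℕ}

/-- The monomial map of a permutation and of `p`th roots of unity. -/
def monomialMap (x : Equiv.Perm (Fin m) × (Fin m → rootsOfUnity p L)) :
    (Fin m → L) ≃ₗ[ℚ] (Fin m → L) :=
  (LinearEquiv.funCongrLeft ℚ L x.1.symm).trans
    (LinearEquiv.piCongrRight fun i =>
      (LinearEquiv.smulOfUnit (R := L) (M := L) (x.2 i : Lˣ)).restrictScalars ℚ)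

/-- The monomial map, evaluated. -/
theorem monomialMap_apply (x : Equiv.Perm (Fin m) × (Fin m → rootsOfUnity p L)) (v : Fin m → L)
    (i : Fin m) : monomialMap x v i = ((x.2 i : Lˣ) : L) * v (x.1.symm i) := rfl

/-- Composition of monomial maps. -/
theorem monomialMap_mul (x y : Equiv.Perm (Fin m) × (Fin m → rootsOfUnity p L)) :
    monomialMap x * monomialMap y =
      monomialMap (x.1 * y.1, fun i => x.2 i * y.2 (x.1.symm i)) := by
  ext v i
  rw [LinearEquiv.mul_apply, monomialMap_apply, monomialMap_apply, monomialMap_apply,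
    Subgroup.coe_mul, Units.val_mul, mul_assoc]
  rfl

/-- The group of monomial maps. -/
def monomialGroup (L : Type*) [Field L] [Algebra ℚ L] (m p : ℕ) :
    Subgroup ((Fin m → L) ≃ₗ[ℚ] (Fin m → L)) where
  carrier := Set.range (monomialMap (L := L) (m := m) (p := p))
  one_mem' := ⟨1, by ext v i; rw [monomialMap_apply]; simp [Equiv.Perm.one_def]⟩
  mul_mem' := by
    rintro _ _ ⟨x, rfl⟩ ⟨y, rfl⟩
    exact ⟨_, (monomialMap_mul x y).symm⟩
  inv_mem' := by
    rintro _ ⟨⟨σ, c⟩, rfl⟩
    refine ⟨(σ⁻¹, fun i => (c (σ i))⁻¹), eq_inv_of_mul_eq_one_left ?_⟩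
    rw [monomialMap_mul]
    ext v i
    rw [monomialMap_apply]
    simp [Equiv.Perm.inv_def, Equiv.Perm.mul_def]

/-- Monomial maps determine their data. -/
theorem monomialMap_injective : Function.Injective (monomialMap (L := L) (m := m) (p := p)) := by
  rintro ⟨σ, c⟩ ⟨τ, d⟩ h
  have hc : c = d := funext fun i => by
    have h1 := congrFun (LinearEquiv.congr_fun h 1) i
    rw [monomialMap_apply, monomialMap_apply] at h1
    exact Subtype.ext (Units.ext (by simpa using h1))
  subst hc
  refine Prod.ext (Equiv.symm_bijective.injective (Equiv.ext fun i => ?_)) rfl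
  classical
  by_contra hne
  have h1 := congrFun (LinearEquiv.congr_fun h (Pi.single (σ.symm i) 1)) i
  rw [monomialMap_apply, monomialMap_apply, Pi.single_eq_same, Pi.single_eq_of_ne (Ne.symm hne),
    mul_one, mul_zero] at h1
  exact (c i : Lˣ).ne_zero h1

/-- The order of the group of monomial maps. -/
theorem card_monomialGroup [NeZero p] {z : L} (hz : IsPrimitiveRoot z p) :
    Nat.card (monomialGroup L m p) = p ^ m * m.factorial := by
  show Nat.card (Set.range (monomialMap (L := L) (m := m) (p := p))) = _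
  rw [← Nat.card_congr (Equiv.ofInjective _ monomialMap_injective), Nat.card_prod, Nat.card_perm,
    Nat.card_fun, Nat.card_fin, hz.card_rootsOfUnity, mul_comm]

end Monomial

/-- Linear automorphisms of a space of dimension `n` as a matrix group. -/
def matrixGroupEquiv {V : Type*} [AddCommGroup V] [Module ℚ V] [FiniteDimensional ℚ V] {n : ℕ}
    (hn : Module.finrank ℚ V = n) : (V ≃ₗ[ℚ] V) ≃* GL (Fin n) ℚ :=
  (LinearMap.GeneralLinearGroup.generalLinearEquiv ℚ V).symm.trans
    (Units.mapEquiv (algEquivMatrix (Module.finBasisOfFinrankEq ℚ V hn)).toMulEquiv)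

set_option backward.isDefEq.respectTransparency false in
/-- **Attainment**: a subgroup of `GL n ℚ` of order `p ^ m m!`, `m = n / (p - 1)`. -/
theorem exists_subgroup_card {p : ℕ} (hp : p.Prime) (n : ℕ) :
    ∃ G : Subgroup (GL (Fin n) ℚ), Finite G ∧
      Nat.card G = p ^ (n / (p - 1)) * (n / (p - 1)).factorial := by
  haveI := Fact.mk hp
  haveI : NeZero p := ⟨hp.ne_zero⟩
  set L := CyclotomicField p ℚ
  haveI : IsCyclotomicExtension {p} ℚ L :=
    inferInstanceAs (IsCyclotomicExtension {p} ℚ (CyclotomicField p ℚ))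
  set m := n / (p - 1) with hm
  set r := n % (p - 1)
  have hz : IsPrimitiveRoot (IsCyclotomicExtension.zeta p ℚ L) p :=
    IsCyclotomicExtension.zeta_spec p ℚ L
  haveI : FiniteDimensional ℚ L := IsCyclotomicExtension.finiteDimensional {p} ℚ L
  have hL : Module.finrank ℚ L = p - 1 := by
    rw [IsCyclotomicExtension.finrank (n := p) L (Polynomial.cyclotomic.irreducible_rat hp.pos),
      Nat.totient_prime hp]
  have hdim : Module.finrank ℚ ((Fin m → L) × (Fin r → ℚ)) = n := by
    rw [Module.finrank_prod, Module.finrank_pi_fintype, Finset.sum_const, Finset.card_univ,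
      Fintype.card_fin, Module.finrank_fin_fun, hL, smul_eq_mul, hm, mul_comm]
    exact Nat.div_add_mod n (p - 1)
  set ι : ((Fin m → L) ≃ₗ[ℚ] (Fin m → L)) →*
      ((Fin m → L) × (Fin r → ℚ)) ≃ₗ[ℚ] ((Fin m → L) × (Fin r → ℚ)) :=
    { toFun := fun g => g.prodCongr (LinearEquiv.refl ℚ _)
      map_one' := rfl
      map_mul' := fun g h => rfl }
  have hι : Function.Injective ι := fun g h e => LinearEquiv.ext fun v =>
    congrArg Prod.fst (LinearEquiv.congr_fun e (v, 0))
  set Φ := (matrixGroupEquiv hdim).toMonoidHom.comp ι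
  have hΦ : Function.Injective Φ := (matrixGroupEquiv hdim).injective.comp hι
  have hcard : Nat.card ((monomialGroup L m p).map Φ) = p ^ m * m.factorial := by
    rw [← Nat.card_congr (Subgroup.equivMapOfInjective _ Φ hΦ).toEquiv, card_monomialGroup hz]
  exact ⟨_, Nat.finite_of_card_ne_zero (hcard ▸ mul_ne_zero (pow_ne_zero _ hp.ne_zero)
    (Nat.factorial_ne_zero _)), hcard⟩

/-- **Minkowski's bound is attained.** -/
theorem exists_factorization_card_eq {p : ℕ} (hp : p.Prime) (n : ℕ) :
    ∃ G : Subgroup (GL (Fin n) ℚ), Finite G ∧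
      (Nat.card G).factorization p = minkowskiExponent n p := by
  obtain ⟨G, hG, hc⟩ := exists_subgroup_card hp n
  exact ⟨G, hG, by rw [hc, factorization_pow_mul_factorial hp]⟩

end FA.LinearGroups

end
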